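import Fermat.Agent.S34.SS.Defs

set_option autoImplicit false
set_option linter.unusedSectionVars false

/-!
# S34 / SS / Basic : small API shared by all leaves of chapter SS  (sorry-free)
-/

noncomputable section

namespace Fermat.Agent.S34

open Polynomial IntermediateField Fermat.Agent.S18

section val
variable {Ω : Type} [Field Ω] (O : ValuationSubring Ω)

/-- `a ∈ 𝔪 ↔ a = 0 ∨ a⁻¹ ∉ O`. -/
theorem ss_mem_nonunits_iff {a : Ω} : a ∈ O.nonunits ↔ a = 0 ∨ a⁻¹ ∉ O := by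
  constructor
  · intro h
    by_cases ha : a = 0
    · exact Or.inl ha
    · refine Or.inr fun h' => one_notMem_nonunits O ?_
      have := mul_mem_nonunits O h' h
      rwa [inv_mul_cancel₀ ha] at this
  · rintro (rfl | h)
    · exact zero_mem_nonunits O
    · by_contra h'
      rcases O.mem_or_inv_mem a with h1 | h1
      · exact h (inv_mem_of_notMem_nonunits O h1 h')
      · exact h h1

/-- unit + nonunit is not a nonunit. -/
theorem ss_notMem_of_sub {a b : Ω} (ha : a ∉ O.nonunits) (hab : a - b ∈ O.nonunits) :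
    b ∉ O.nonunits := fun hb => ha (by simpa using add_mem_nonunits O hab hb)

theorem ss_mul_notMem {a b : Ω} (ha : a ∉ O.nonunits) (hb : b ∉ O.nonunits) :
    a * b ∉ O.nonunits := by
  rw [ValuationSubring.mem_nonunits_iff, not_lt] at ha hb ⊢
  rw [map_mul]
  calc (1 : _) = 1 * 1 := (one_mul 1).symm
    _ ≤ O.valuation a * O.valuation b := mul_le_mul' ha hb

theorem ss_pow_mem_nonunits {a : Ω} (ha : a ∈ O.nonunits) {k : ℕ} (hk : 1 ≤ k) :
    a ^ k ∈ O.nonunits := by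
  obtain ⟨j, rfl⟩ : ∃ j, k = j + 1 := ⟨k - 1, by omega⟩
  rw [pow_succ]
  exact mul_mem_nonunits O (pow_mem (mem_of_mem_nonunits O ha) j) ha

theorem ss_mem_nonunits_of_pow {a : Ω} {k : ℕ} (h : a ^ k ∈ O.nonunits) : a ∈ O.nonunits := by
  by_contra ha
  have : ∀ j : ℕ, a ^ j ∉ O.nonunits := by
    intro j
    induction j with
    | zero => rw [pow_zero]; exact one_notMem_nonunits O
    | succ j ih => rw [pow_succ]; exact ss_mul_notMem O ih ha
  exact this k h

/-- `a ≡ b ⟹ a ^ k ≡ b ^ k`. -/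
theorem ss_pow_sub_pow_mem {a b : Ω} (ha : a ∈ O) (hb : b ∈ O) (h : a - b ∈ O.nonunits) (k : ℕ) :
    a ^ k - b ^ k ∈ O.nonunits := by
  induction k with
  | zero => simp [zero_mem_nonunits O]
  | succ k ih =>
    have e : a ^ (k + 1) - b ^ (k + 1) = a ^ k * (a - b) + (a ^ k - b ^ k) * b := by ring
    rw [e]
    exact add_mem_nonunits O (mul_mem_nonunits O (pow_mem ha k) h) (mul_mem_nonunits' O ih hb)

end val

variable {R K F₁ F : Type} [CommRing R] [IsDomain R] [IsDiscreteValuationRing R] [Field K] [CharZero K]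
  [Algebra R K] [IsFractionRing R K] [Field F₁] [Algebra K F₁] [Field F] [Algebra K F] {ϖ : R}

theorem ss_rE_ne_zero (hϖ : Irreducible ϖ) : rE R K F ϖ ≠ 0 := fun h =>
  hϖ.ne_zero (rE_injective (K := K) (E := F) (by rw [h, map_zero]))

theorem ss_algHom_rE (ι : F₁ →ₐ[K] F) (r : R) : ι (rE R K F₁ r) = rE R K F r := by
  simp [rE]

theorem ss_algHom_evR (ι : F₁ →ₐ[K] F) (t₁ : F₁) (s : R[X]) :
    ι (evR R K t₁ s) = evR R K (ι t₁) s := by
  induction s using Polynomial.induction_on' with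
  | add p q hp hq => simp only [map_add, hp, hq]
  | monomial n a =>
    rw [← C_mul_X_pow_eq_monomial]
    simp only [map_mul, map_pow, evR_C, evR_X, ss_algHom_rE]

namespace Chart1
variable {t₁ : F₁} {V₁ : ValuationSubring F₁}

theorem C_le (hϖ : Irreducible ϖ) (h1 : Chart1 K ϖ t₁ V₁) {y : F₁} (hy : y ∈ CInt R K t₁) :
    y ∈ V₁ := (h1.inO_iff y).1 (InO.of_mem_CInt hϖ hy)

/-- `C₁ ∩ 𝔪₁ = ϖ C₁`. -/
theorem exists_eq_mul (hϖ : Irreducible ϖ) (h1 : Chart1 K ϖ t₁ V₁) {y : F₁}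
    (hy : y ∈ CInt R K t₁) (hy' : y ∈ V₁.nonunits) :
    ∃ y' ∈ CInt R K t₁, y = rE R K F₁ ϖ * y' := by
  have h0 := ss_rE_ne_zero (K := K) (F := F₁) hϖ
  refine ⟨(rE R K F₁ ϖ)⁻¹ * y, ?_, by rw [← mul_assoc, mul_inv_cancel₀ h0, one_mul]⟩
  refine mem_CInt_of_mul_of_InO h1.trans hϖ ?_ ((h1.inO_iff _).2 (h1.unif y hy'))
  rwa [← mul_assoc, mul_inv_cancel₀ h0, one_mul]

/-- `CongA` at level one is congruence modulo `𝔪₁`. -/
theorem congA_iff (hϖ : Irreducible ϖ) (h1 : Chart1 K ϖ t₁ V₁) (y z : F₁) :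
    CongA K ϖ t₁ y z ↔ y - z ∈ V₁.nonunits := by
  have h0 := ss_rE_ne_zero (K := K) (F := F₁) hϖ
  constructor
  · rintro ⟨η, hη, e⟩
    rw [e]
    exact mul_mem_nonunits' V₁ h1.mem ((h1.inO_iff η).1 hη)
  · intro h
    exact ⟨_, (h1.inO_iff _).2 (h1.unif _ h), by rw [← mul_assoc, mul_inv_cancel₀ h0, one_mul]⟩

/-- primitive polynomials in `t₁` are units of `V₁`. -/
theorem evR_notMem (hϖ : Irreducible ϖ) (h1 : Chart1 K ϖ t₁ V₁) {s : R[X]} (hs : ¬ C ϖ ∣ s) :
    evR R K t₁ s ∉ V₁.nonunits := by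
  have hs0 : evR R K t₁ s ≠ 0 := by
    intro h
    apply hs
    have : s = 0 := evR_injective h1.trans (by rw [h, map_zero])
    rw [this]; exact dvd_zero _
  rw [ss_mem_nonunits_iff, not_or, not_not]
  refine ⟨hs0, (h1.inO_iff _).1 ⟨s, hs, ?_⟩⟩
  rw [mul_inv_cancel₀ hs0]
  exact (CInt R K t₁).one_mem

end Chart1

namespace Side
variable {q : ℕ} {t₁ : F₁} {V₁ : ValuationSubring F₁} {t : F} {V : ValuationSubring F}
  {ιa ιb : F₁ →ₐ[K] F}

theorem comap_nonunits (hs : Side R q t₁ V₁ t V ιa ιb) (y : F₁) :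
    ιa y ∈ V.nonunits ↔ y ∈ V₁.nonunits := by
  rw [ss_mem_nonunits_iff, ss_mem_nonunits_iff, ← map_inv₀, hs.comap, map_eq_zero]

end Side

section loc
variable {t : F} {n : Ideal (CInt R K t)}

/-- an element of the local ring which is a nonunit of a valuation ring centred at `n` lies in the maximal
ideal. -/
theorem Centered.inMax {V : ValuationSubring F} (hV : ∀ y ∈ CInt R K t, y ∈ V) (hc : Centered V n)
    {z : F} (hz : InLoc n z) (hz' : z ∈ V.nonunits) : InMax n z := by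
  obtain ⟨d, hd, h1⟩ := hz
  exact ⟨d, hd, ⟨_, h1⟩, hc _ (mul_mem_nonunits V (hV _ d.2) hz'), rfl⟩

theorem LocUnit.notMem_nonunits {V : ValuationSubring F} (hV : ∀ y ∈ CInt R K t, y ∈ V)
    (hc : Centered V n) {z : F} (hz : LocUnit n z) : z ∉ V.nonunits := by
  rw [ss_mem_nonunits_iff, not_or, not_not]
  exact ⟨hz.1, hc.mem_of_inLoc hV hz.2.2⟩

theorem InMax.of_mem [n.IsPrime] {c : CInt R K t} (hc : c ∈ n) : InMax n (c : F) :=
  ⟨1, loc_one_notMem n, c, hc, by simp⟩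

theorem InMax.neg {z : F} (hz : InMax n z) : InMax n (-z) := by
  obtain ⟨d, hd, w, hw, h⟩ := hz
  exact ⟨d, hd, -w, n.neg_mem_iff.2 hw, by rw [mul_neg, h]; rfl⟩

theorem InMax.sub [n.IsPrime] {y z : F} (hy : InMax n y) (hz : InMax n z) : InMax n (y - z) := by
  rw [sub_eq_add_neg]; exact hy.add hz.neg

theorem InMax.mul_right [n.IsPrime] {y z : F} (hy : InMax n y) (hz : InLoc n z) :
    InMax n (y * z) := by
  rw [mul_comm]; exact InMax.mul_left hz hy

theorem InLoc.inv_of_notMem {d : CInt R K t} (hd : d ∉ n) : InLoc n ((d : F)⁻¹) := by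
  have hd0 : (d : F) ≠ 0 := by
    intro h
    apply hd
    have : d = 0 := Subtype.ext h
    rw [this]; exact n.zero_mem
  exact ⟨d, hd, by rw [mul_inv_cancel₀ hd0]; exact (CInt R K t).one_mem⟩

theorem ss_coe_ne_zero {d : CInt R K t} (hd : d ∉ n) : (d : F) ≠ 0 := by
  intro h
  apply hd
  have : d = 0 := Subtype.ext h
  rw [this]; exact n.zero_mem

theorem InLoc.rE [n.IsPrime] (r : R) : InLoc n (rE R K F r) := InLoc.of_mem n (rE_mem_CInt t r)

theorem IsClosedPt.inMax_unif (hn : IsClosedPt ϖ n) : InMax n (rE R K F ϖ) :=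
  haveI := hn.max.isPrime
  InMax.of_mem (c := unifC t ϖ) hn.mem

/-- an element of `C` lying in `InMax n` lies in `n`. -/
theorem InMax.mem [hp : n.IsPrime] {c : CInt R K t} (h : InMax n (c : F)) : c ∈ n := by
  obtain ⟨d, hd, w, hw, e⟩ := h
  have : d * c = w := Subtype.ext e
  exact (hp.mem_or_mem (this ▸ hw)).resolve_left hd

end loc

end Fermat.Agent.S34
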