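import Fermat.Agent.S34.SS.DedB

set_option autoImplicit false
set_option linter.unusedSectionVars false

/-!
# S34 / SS / DedC : local generators of the closed points of the lower level   (task SS-DedC)

SKETCH.
 * `ded_exists_gen` (pure Mathlib): `Z` Dedekind, `P` prime.  If `P = ⊥`: `a = 0`, `d = 1`.  Otherwise `P^2 < P` (`Ideal.pow_succ_lt_pow` / `Ideal.pow_right_strictAnti`), pick `a ∈ P \ P^2`
   (`SetLike.exists_of_lt`).  `P ∣ span {a}` (`Ideal.dvd_iff_le`): `span {a} = P * I`.  `I ⊄ P` (otherwise `span {a} ≤ P * P`).  Pick `d ∈ I \ P`.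
   For `y ∈ P`: `d * y ∈ P * I = span {a}` (`Ideal.mul_mem_mul`, `Ideal.mem_span_singleton'`).  (the same `d` works for all `y`.)
 * `Chart1.exists_locGen`: apply it to `Z = C₁ ⧸ span {ϖ}`, `P = n₁.map (Ideal.Quotient.mk _)` (prime: `Ideal.map_isPrime_of_surjective` with `ker ≤ n₁`;
   `mk y ∈ P ↔ y ∈ n₁`: `Ideal.mem_map_iff_of_surjective` + `span {ϖ} ≤ n₁`, or `Ideal.mem_quotient_iff_mem`).  Lift `a, d, c`; `mk (d y - X₁ c) = 0` gives `d y - X₁ c = ϖ b` (`Ideal.Quotient.eq_zero_iff_mem`, `Ideal.mem_span_singleton'`).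
 * `IsLocGen.sub_pow`: `Y ∈ n₁`: `d Y = X₁ a + ϖ b`; `(X₁ a + ϖ b)^k = (X₁ a)^k + ϖ c` (`sub_dvd_pow_sub_pow`).  With `u := d^k - X₁^(k-1) a^k ∉ n₁`:
   `d^k (X₁ - Y^k) = X₁ u - ϖ c`.  For `y ∈ n₁`, `e y = X₁ a' + ϖ b'`:  `(u e) y = (X₁ - Y^k) (d^k a') + ϖ (c a' + u b')`.
-/

noncomputable section

namespace Fermat.Agent.S34

open Polynomial IntermediateField Fermat.Agent.S18

variable {R K F₁ F : Type} [CommRing R] [IsDomain R] [IsDiscreteValuationRing R] [Field K] [CharZero K]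
  [Algebra R K] [IsFractionRing R K] [Field F₁] [Algebra K F₁] [Field F] [Algebra K F] {ϖ : R}

theorem ded_exists_gen {Z : Type} [CommRing Z] [IsDedekindDomain Z] (P : Ideal Z) [P.IsPrime] :
    ∃ a ∈ P, ∃ d ∉ P, ∀ y ∈ P, ∃ c, d * y = a * c := by
  by_cases hP : P = ⊥
  · subst hP
    refine ⟨0, zero_mem _, 1, by simp, fun y hy => ⟨0, ?_⟩⟩
    rw [Ideal.mem_bot] at hy
    simp [hy]
  · have hPtop : P ≠ ⊤ := Ideal.IsPrime.ne_top inferInstance
    have hlt : P ^ 2 < P := by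
      have := Ideal.pow_right_strictAnti P hP hPtop (show 1 < 2 by norm_num)
      simpa using this
    obtain ⟨a, haP, haP2⟩ := SetLike.exists_of_lt hlt
    have hdvd : P ∣ Ideal.span {a} := by
      rw [Ideal.dvd_iff_le, Ideal.span_singleton_le_iff_mem]
      exact haP
    obtain ⟨I, hI⟩ := hdvd
    have hIP : ¬ I ≤ P := by
      intro hle
      apply haP2
      have : Ideal.span {a} ≤ P ^ 2 := by
        rw [hI, pow_two]
        exact Ideal.mul_mono_right hle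
      exact this (Ideal.mem_span_singleton_self a)
    obtain ⟨d, hdI, hdP⟩ := SetLike.not_le_iff_exists.1 hIP
    refine ⟨a, haP, d, hdP, fun y hy => ?_⟩
    have : d * y ∈ Ideal.span {a} := by
      rw [hI, mul_comm d y]
      exact Ideal.mul_mem_mul hy hdI
    obtain ⟨c, hc⟩ := Ideal.mem_span_singleton'.1 this
    exact ⟨c, by rw [← hc, mul_comm]⟩

theorem Chart1.exists_locGen (hϖ : Irreducible ϖ) {t₁ : F₁} {V₁ : ValuationSubring F₁}
    (h1 : Chart1 K ϖ t₁ V₁) (n₁ : Ideal (CInt R K t₁)) [n₁.IsPrime] (hn : unifC t₁ ϖ ∈ n₁) :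
    ∃ X₁ : CInt R K t₁, IsLocGen ϖ n₁ X₁ := by
  have hded := h1.isDedekindDomain_quot hϖ
  set I : Ideal (CInt R K t₁) := Ideal.span {unifC (K := K) t₁ ϖ} with hI
  have hIn : I ≤ n₁ := by
    rw [hI, Ideal.span_singleton_le_iff_mem]
    exact hn
  set P : Ideal (CInt R K t₁ ⧸ I) := n₁.map (Ideal.Quotient.mk I) with hP
  have hPprime : P.IsPrime := Ideal.map_isPrime_of_surjective Ideal.Quotient.mk_surjective
    (by rw [Ideal.mk_ker]; exact hIn)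
  have hmem : ∀ y : CInt R K t₁, Ideal.Quotient.mk I y ∈ P ↔ y ∈ n₁ := fun y =>
    Ideal.mem_quotient_iff_mem hIn
  obtain ⟨a, haP, d, hdP, h⟩ := ded_exists_gen P
  obtain ⟨X₁, rfl⟩ := Ideal.Quotient.mk_surjective a
  obtain ⟨d', rfl⟩ := Ideal.Quotient.mk_surjective d
  refine ⟨X₁, (hmem X₁).1 haP, fun y hy => ⟨d', fun hd => hdP ((hmem d').2 hd), ?_⟩⟩
  obtain ⟨c, hc⟩ := h _ ((hmem y).2 hy)
  obtain ⟨c', rfl⟩ := Ideal.Quotient.mk_surjective c
  rw [← map_mul, ← map_mul, Ideal.Quotient.eq, hI, Ideal.mem_span_singleton'] at hc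
  obtain ⟨b, hb⟩ := hc
  exact ⟨c', b, by rw [mul_comm (unifC t₁ ϖ), hb]; ring⟩

theorem IsLocGen.sub_pow {t₁ : F₁} {n₁ : Ideal (CInt R K t₁)} [n₁.IsPrime] {X₁ Y : CInt R K t₁}
    (h : IsLocGen ϖ n₁ X₁) (hY : Y ∈ n₁) {k : ℕ} (hk : 2 ≤ k) : IsLocGen ϖ n₁ (X₁ - Y ^ k) := by
  have hp : n₁.IsPrime := inferInstance
  obtain ⟨hX, hgen⟩ := h
  refine ⟨n₁.sub_mem hX (n₁.pow_mem_of_mem hY k (by omega)), fun y hy => ?_⟩
  obtain ⟨d, hd, a, b, hdY⟩ := hgen Y hY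
  obtain ⟨e, he, a', b', hey⟩ := hgen y hy
  set w := unifC (K := K) t₁ ϖ with hw
  -- `(X₁ a + ϖ b)^k = (X₁ a)^k + ϖ c`
  obtain ⟨c, hc⟩ : ∃ c, (X₁ * a + w * b) ^ k = (X₁ * a) ^ k + w * c := by
    obtain ⟨c, hc⟩ := sub_dvd_pow_sub_pow (X₁ * a + w * b) (X₁ * a) k
    refine ⟨b * c, ?_⟩
    have : (X₁ * a + w * b) ^ k = (X₁ * a) ^ k + (X₁ * a + w * b - X₁ * a) * c := by
      rw [← hc]; ring
    rw [this]; ring
  obtain ⟨j, rfl⟩ : ∃ j, k = j + 1 := ⟨k - 1, by omega⟩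
  have hj : 1 ≤ j := by omega
  set u := d ^ (j + 1) - X₁ ^ j * a ^ (j + 1) with hu
  have hun : u ∉ n₁ := by
    intro hmem
    have h1 : X₁ ^ j * a ^ (j + 1) ∈ n₁ :=
      n₁.mul_mem_right _ (n₁.pow_mem_of_mem hX j (by omega))
    have h2 : d ^ (j + 1) ∈ n₁ := by
      have := n₁.add_mem hmem h1
      rwa [hu, sub_add_cancel] at this
    exact hd (hp.mem_of_pow_mem _ h2)
  have h1 : d ^ (j + 1) * (X₁ - Y ^ (j + 1)) = X₁ * u - w * c := by
    have h2 : d ^ (j + 1) * Y ^ (j + 1) = (X₁ * a) ^ (j + 1) + w * c := by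
      rw [← mul_pow, hdY, hc]
    rw [mul_sub, h2, hu]
    ring
  refine ⟨u * e, fun hmem => (hp.mem_or_mem hmem).elim hun he, d ^ (j + 1) * a', c * a' + u * b', ?_⟩
  calc u * e * y = u * (e * y) := by ring
    _ = u * (X₁ * a' + w * b') := by rw [hey]
    _ = (X₁ * u - w * c) * a' + w * (c * a' + u * b') := by ring
    _ = (X₁ - Y ^ (j + 1)) * (d ^ (j + 1) * a') + w * (c * a' + u * b') := by rw [← h1]; ring

end Fermat.Agent.S34
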