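import Fermat.Agent.S34.SS.IntCl

set_option autoImplicit false
set_option linter.unusedSectionVars false

/-!
# S34 / SS / Cusp : the two branches do not meet at the cusps; `D, D'` are regular elsewhere   (task SS-Cusp)

SKETCH.  `J t^r = B(t)`, `r ≥ 1`, `B(0) ∈ Rˣ`.  `τ := ⟨t, self_mem_CInt t⟩ : C`.
 (CHANGE by helper5, 22:35: `JData` now has the WEAK integrality fields `D_int : ∃ k, rE ϖ ^ k * D ∈ CInt R K J` etc. + memberships in `Vi`, `V0`; use `InLoc.of_mem_CInt` for `ϖ^k D` and then `Branches.sat_loc`.)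
 CASE `τ ∉ n`: `t⁻¹ ∈ O` (`InLoc.inv_of_notMem`), `J = B(t) (t⁻¹)^r ∈ O`; `InLoc.of_mem_CInt` gives `D, D' ∈ O`: done (the other fields of `DData` are copied from `JData`).
 CASE `τ ∈ n`: contradiction.  `B(t) = B(0) + t * (..)` (`Polynomial.X_mul_divX_add` / `divX_mul_X_add`), `B(0)` a unit of `R`, so `B(t) ∉ n` (otherwise `rE B(0) ∈ n`, a unit of `C`),
   `J ≠ 0`, `J⁻¹ = t^r * B(t)⁻¹` is `InMax`.  `g ∈ O` (`InLoc.of_mem_CInt` with `J⁻¹`).  `g - 1 ∈ O ∩ 𝔪_Vi` ⟹ `InMax n (g - 1)` (`Centered.inMax`), so `g = 1 + (g - 1)` is a `LocUnit`.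
   `Jq⁻¹ = (J⁻¹)^q * g⁻¹` is `InMax` if `q ≥ 1` (hypothesis `hq`), so `(Jq⁻¹)^k` is `InMax` (`k ≥ 1`) and in `O`; `g - (Jq⁻¹)^k ∈ O ∩ 𝔪_V0` ⟹ `InMax`; hence `InMax n g`, and
   `1 = g - (g - 1)` is `InMax`: contradiction with `not_inMax_one`.
-/

noncomputable section

namespace Fermat.Agent.S34

open Polynomial IntermediateField Fermat.Agent.S18

variable {R K F₁ F : Type} [CommRing R] [IsDomain R] [IsDiscreteValuationRing R] [Field K] [CharZero K]
  [Algebra R K] [IsFractionRing R K] [Field F₁] [Algebra K F₁] [Field F] [Algebra K F] {ϖ : R}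

theorem cusp_inMax_pow {t : F} {n : Ideal (CInt R K t)} [n.IsPrime] {z : F} (hz : InMax n z) {k : ℕ}
    (hk : 1 ≤ k) : InMax n (z ^ k) := by
  obtain ⟨j, rfl⟩ : ∃ j, k = j + 1 := ⟨k - 1, by omega⟩
  rw [pow_succ']
  exact InMax.mul_right hz (hz.inLoc.pow j)

theorem JData.dData (hϖ : Irreducible ϖ) {q : ℕ} (hq : 1 ≤ q) {x : F} {Vi V0 : ValuationSubring F}
    (hB : Branches (K := K) ϖ x Vi V0) {t : F} (ht : t = x ∨ t = x⁻¹) {J D D' g Jq : F} {c₀ : R}
    (hJ : JData (K := K) ϖ q t Vi V0 J D D' g Jq c₀) {n : Ideal (CInt R K t)} (hn : IsClosedPt ϖ n)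
    (hi : Centered Vi n) (h0 : Centered V0 n) : DData Vi V0 n D D' c₀ := by
  haveI := hn.max.isPrime
  obtain ⟨B, r, hr, hB0, hJt⟩ := hJ.J_eq
  suffices hJloc : InLoc n J by
    obtain ⟨k, hk⟩ := hJ.D_int
    obtain ⟨k', hk'⟩ := hJ.D'_int
    exact ⟨hJ.ne,
      hB.sat_loc hϖ ht k (hJloc.of_mem_CInt hk) hJ.D_mem_i (mem_of_mem_nonunits V0 hJ.D_0),
      hB.sat_loc hϖ ht k' (hJloc.of_mem_CInt hk') hJ.D'_mem_i hJ.D'_mem_0, hJ.mul, hJ.D_0, hJ.D_i⟩
  by_cases hτ : (⟨t, self_mem_CInt t⟩ : CInt R K t) ∈ n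
  · exfalso
    have hβ : (⟨evR R K t B, evR_mem_CInt t B⟩ : CInt R K t) ∉ n := by
      intro h
      have e : evR R K t B = t * evR R K t B.divX + rE R K F (B.coeff 0) := by
        conv_lhs => rw [← X_mul_divX_add B]
        rw [map_add, map_mul, evR_X, evR_C]
      have h2 : (⟨rE R K F (B.coeff 0), rE_mem_CInt t _⟩ : CInt R K t) ∈ n := by
        have e2 : (⟨rE R K F (B.coeff 0), rE_mem_CInt t _⟩ : CInt R K t) =
            ⟨evR R K t B, evR_mem_CInt t B⟩ -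
              ⟨t, self_mem_CInt t⟩ * ⟨evR R K t B.divX, evR_mem_CInt t _⟩ := by
          apply Subtype.ext
          show rE R K F (B.coeff 0) = evR R K t B - t * evR R K t B.divX
          rw [e]
          ring
        rw [e2]
        exact n.sub_mem h (n.mul_mem_right _ hτ)
      obtain ⟨u, hu⟩ := hB0
      have h3 : (1 : CInt R K t) ∈ n := by
        have e3 : (1 : CInt R K t) = ⟨rE R K F ((u⁻¹ : Rˣ) : R), rE_mem_CInt t _⟩ *
            ⟨rE R K F (B.coeff 0), rE_mem_CInt t _⟩ := by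
          apply Subtype.ext
          show (1 : F) = rE R K F ((u⁻¹ : Rˣ) : R) * rE R K F (B.coeff 0)
          rw [← map_mul, ← hu, Units.inv_mul, map_one]
        rw [e3]
        exact n.mul_mem_left _ h2
      exact loc_one_notMem n h3
    have hβ0 : evR R K t B ≠ 0 := ss_coe_ne_zero hβ
    have ht0 : t ≠ 0 := fun h => (hB.trans' ht) (h ▸ isAlgebraic_zero)
    have hJ0 : J ≠ 0 := by
      intro h
      rw [h, zero_mul] at hJt
      exact hβ0 hJt.symm
    have hJinv : J⁻¹ = t ^ r * (evR R K t B)⁻¹ := by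
      rw [← hJt, mul_inv, mul_comm J⁻¹, ← mul_assoc, mul_inv_cancel₀ (pow_ne_zero _ ht0), one_mul]
    have hJmax : InMax n J⁻¹ := by
      rw [hJinv]
      exact InMax.mul_right (cusp_inMax_pow (InMax.of_mem hτ) hr) (InLoc.inv_of_notMem hβ)
    have hg : InLoc n g := by
      obtain ⟨k, hk⟩ := hJ.g_int
      refine hB.sat_loc hϖ ht k (hJmax.inLoc.of_mem_CInt hk) ?_ hJ.g_mem_0
      have := add_mem (mem_of_mem_nonunits Vi hJ.g_i) Vi.one_mem
      rwa [sub_add_cancel] at this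
    have hVi : ∀ y ∈ CInt R K t, y ∈ Vi := fun y hy => (hB.mem_of_mem_CInt hϖ ht hy).1
    have hV0 : ∀ y ∈ CInt R K t, y ∈ V0 := fun y hy => (hB.mem_of_mem_CInt hϖ ht hy).2
    have hg1 : InMax n (g - 1) :=
      hi.inMax hVi (hg.sub (InLoc.of_mem n (CInt R K t).one_mem)) hJ.g_i
    have hgu : LocUnit n g := by
      have := LocUnit.one_add hg1
      rwa [add_sub_cancel] at this
    have hJq : Jq⁻¹ = (J⁻¹) ^ q * g⁻¹ := by
      rw [← hJ.g_mul, mul_inv, inv_pow, mul_comm]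
    have hJqmax : InMax n Jq⁻¹ := by
      rw [hJq]
      exact InMax.mul_right (cusp_inMax_pow hJmax hq) hgu.2.2
    obtain ⟨k, hk, hgk⟩ := hJ.g_0
    have h5 : InMax n (Jq⁻¹ ^ k) := cusp_inMax_pow hJqmax hk
    have h6 : InMax n (g - Jq⁻¹ ^ k) := h0.inMax hV0 (hg.sub h5.inLoc) hgk
    have h7 : InMax n g := by
      have := h6.add h5
      rwa [sub_add_cancel] at this
    have h8 : InMax n (1 : F) := by
      have := h7.sub hg1
      rwa [sub_sub_cancel] at this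
    exact not_inMax_one h8
  · have h1 : InLoc n t⁻¹ := InLoc.inv_of_notMem hτ
    have ht0 : t ≠ 0 := ss_coe_ne_zero hτ
    have e : J = evR R K t B * (t⁻¹) ^ r := by
      rw [← hJt, inv_pow, mul_assoc, mul_inv_cancel₀ (pow_ne_zero _ ht0), mul_one]
    rw [e]
    exact (InLoc.of_mem n (evR_mem_CInt t B)).mul (h1.pow r)

end Fermat.Agent.S34
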