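import Fermat.Agent.S34.SS.Basic

set_option autoImplicit false
set_option linter.unusedSectionVars false

/-!
# S34 / SS / MorseB : one step of the Morse-lemma iteration   (task SS-MorseB)

SKETCH.
 * `IsRat.exists_sub_inMax`: `d ψ = c ∈ C`, `d ∉ n`; `c - r_c ∈ n`, `d - r_d ∈ n`; `r_d` is a unit of `R` (otherwise `ϖ ∣ r_d` [`lf_dvd_of_not_isUnit` in S34/LF.lean, or reprove], `r_d ∈ n`, `d ∈ n`).
   `r := r_c * r_d⁻¹`.  `(d r_d)(ψ - r) = (c - r_c) r_d - r_c (d - r_d) ∈ n`, and `d * r_d ∉ n` (`r_d` a unit of `C`).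
 * `PreNode.step`: `ψ = r + μ`, `InMax n μ`, `μ = ϖ a + S b + T c` (`h.gen`).  `S' := S - ϖ^k c`, `T' := T - ϖ^k b`, `ρ' := ρ + ϖ^k r`, `ψ' := a + ϖ^(k-1) b c`:
     `S' T' = S T - ϖ^k (S b + T c) + ϖ^(2k) b c = ρ + ϖ^k r + ϖ^(k+1) a + ϖ^(2k) b c`   (`2k = (k+1) + (k-1)`; write `k = j + 1` and use `ring`).
   `PreNode S' T'`: `ϖ^k c` is `InMax` and lies in `𝔪_Vi ∩ 𝔪_V0` (`c ∈ O ⊆ Vi ∩ V0`, `ss_pow_mem_nonunits`, `hB.mem_i`, `hB.mem_0`); `S' ∈ 𝔪_Vi` (`sub_mem_nonunits`); `S' ∉ 𝔪_V0` (`ss_notMem_of_sub`);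
   generation: `z = ϖ a₀ + S b₀ + T c₀ = ϖ (a₀ + ϖ^(k-1) (c b₀ + b c₀)) + S' b₀ + T' c₀`.
-/

noncomputable section

namespace Fermat.Agent.S34

open Polynomial IntermediateField Fermat.Agent.S18

variable {R K F₁ F : Type} [CommRing R] [IsDomain R] [IsDiscreteValuationRing R] [Field K] [CharZero K]
  [Algebra R K] [IsFractionRing R K] [Field F₁] [Algebra K F₁] [Field F] [Algebra K F] {ϖ : R}

theorem IsRat.exists_sub_inMax (hϖ : Irreducible ϖ) {t : F} {n : Ideal (CInt R K t)}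
    (hn : IsClosedPt ϖ n) (hrat : IsRat n) {ψ : F} (hψ : InLoc n ψ) :
    ∃ r : R, InMax n (ψ - rE R K F r) := by
  obtain ⟨d, hd, hc⟩ := hψ
  obtain ⟨rc, hrc⟩ := hrat ⟨_, hc⟩
  obtain ⟨rd, hrd⟩ := hrat d
  have hu : IsUnit rd := by
    by_contra hu
    have h1 := (IsDiscreteValuationRing.irreducible_iff_uniformizer ϖ).mp hϖ
    have h2 : rd ∈ IsLocalRing.maximalIdeal R := (IsLocalRing.mem_maximalIdeal rd).mpr hu
    rw [h1] at h2
    obtain ⟨r', rfl⟩ := Ideal.mem_span_singleton.mp h2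
    apply hd
    have h3 : (⟨rE R K F (ϖ * r'), rE_mem_CInt t (ϖ * r')⟩ : CInt R K t) ∈ n := by
      have e : (⟨rE R K F (ϖ * r'), rE_mem_CInt t (ϖ * r')⟩ : CInt R K t) =
          ⟨rE R K F r', rE_mem_CInt t r'⟩ * unifC t ϖ := by
        apply Subtype.ext
        simp only [Subring.coe_mul, map_mul, unifC]
        ring
      rw [e]
      exact n.mul_mem_left _ hn.mem
    have := n.add_mem hrd h3
    simpa using this
  obtain ⟨u, hu⟩ := hu.exists_left_inv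
  refine ⟨rc * u, d, hd, (⟨_, hc⟩ - ⟨rE R K F rc, rE_mem_CInt t rc⟩) -
    ⟨rE R K F (rc * u), rE_mem_CInt t (rc * u)⟩ * (d - ⟨rE R K F rd, rE_mem_CInt t rd⟩),
    n.sub_mem hrc (n.mul_mem_left _ hrd), ?_⟩
  show (d : F) * (ψ - rE R K F (rc * u)) =
    ((d : F) * ψ - rE R K F rc) - rE R K F (rc * u) * ((d : F) - rE R K F rd)
  have e1 : rE R K F (rc * u) * rE R K F rd = rE R K F rc := by
    rw [← map_mul, mul_assoc, hu, mul_one]
  linear_combination -e1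

theorem PreNode.step (hϖ : Irreducible ϖ) {x : F} {Vi V0 : ValuationSubring F}
    (hB : Branches (K := K) ϖ x Vi V0) {t : F} (ht : t = x ∨ t = x⁻¹)
    {n : Ideal (CInt R K t)} (hn : IsClosedPt ϖ n) (hrat : IsRat n) (hi : Centered Vi n)
    (h0 : Centered V0 n) {S T : F} (h : PreNode ϖ Vi V0 n S T) {k : ℕ} (hk : 1 ≤ k) {ρ : R} {ψ : F}
    (hψ : InLoc n ψ) (e : S * T = rE R K F ρ + rE R K F ϖ ^ k * ψ) :
    ∃ (S' T' : F) (ρ' : R) (ψ' : F), PreNode ϖ Vi V0 n S' T' ∧ InLoc n ψ' ∧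
      S' * T' = rE R K F ρ' + rE R K F ϖ ^ (k + 1) * ψ' := by
  haveI hp := hn.max.isPrime
  obtain ⟨j, rfl⟩ : ∃ j, k = j + 1 := ⟨k - 1, by omega⟩
  have hVi : ∀ y ∈ CInt R K t, y ∈ Vi := fun y hy => (hB.mem_of_mem_CInt hϖ ht hy).1
  have hV0 : ∀ y ∈ CInt R K t, y ∈ V0 := fun y hy => (hB.mem_of_mem_CInt hϖ ht hy).2
  obtain ⟨r, hr⟩ := hrat.exists_sub_inMax hϖ hn hψ
  obtain ⟨a, b, c, ha, hb, hc, hμ⟩ := h.gen _ hr
  set p := rE R K F ϖ with hpdef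
  have hpL : InLoc n p := InLoc.rE ϖ
  have hmax : ∀ y : F, InLoc n y → InMax n (p ^ (j + 1) * y) := by
    intro y hy
    have : p ^ (j + 1) * y = p * (p ^ j * y) := by ring
    rw [this]
    exact hn.inMax_unif.mul_right ((hpL.pow j).mul hy)
  have hmi : ∀ y : F, InLoc n y → p ^ (j + 1) * y ∈ Vi.nonunits := fun y hy =>
    mul_mem_nonunits' Vi (ss_pow_mem_nonunits Vi hB.mem_i hk) (hi.mem_of_inLoc hVi hy)
  have hm0 : ∀ y : F, InLoc n y → p ^ (j + 1) * y ∈ V0.nonunits := fun y hy =>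
    mul_mem_nonunits' V0 (ss_pow_mem_nonunits V0 hB.mem_0 hk) (h0.mem_of_inLoc hV0 hy)
  refine ⟨S - p ^ (j + 1) * c, T - p ^ (j + 1) * b, ρ + ϖ ^ (j + 1) * r, a + p ^ j * (b * c),
    ⟨h.S_max.sub (hmax c hc), h.T_max.sub (hmax b hb), sub_mem_nonunits Vi h.S_i (hmi c hc),
      sub_mem_nonunits V0 h.T_0 (hm0 b hb), ?_, ?_, ?_⟩, ha.add ((hpL.pow j).mul (hb.mul hc)), ?_⟩
  · refine ss_notMem_of_sub V0 h.S_0 ?_
    have : S - (S - p ^ (j + 1) * c) = p ^ (j + 1) * c := by ring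
    rw [this]; exact hm0 c hc
  · refine ss_notMem_of_sub Vi h.T_i ?_
    have : T - (T - p ^ (j + 1) * b) = p ^ (j + 1) * b := by ring
    rw [this]; exact hmi b hb
  · intro z hz
    obtain ⟨a₀, b₀, c₀, ha₀, hb₀, hc₀, hz'⟩ := h.gen z hz
    refine ⟨a₀ + p ^ j * (c * b₀ + b * c₀), b₀, c₀,
      ha₀.add ((hpL.pow j).mul ((hc.mul hb₀).add (hb.mul hc₀))), hb₀, hc₀, ?_⟩
    rw [hz']; ring
  · rw [map_add, map_mul, map_pow, ← hpdef]
    have hψ' : ψ = rE R K F r + (p * a + S * b + T * c) := by rw [← hμ]; ring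
    linear_combination e + p ^ (j + 1) * hψ'

end Fermat.Agent.S34
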