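import Fermat.Agent.S34.SS.MorseA
import Fermat.Agent.S34.SS.MorseB

set_option autoImplicit false
set_option linter.unusedSectionVars false

/-!
# S34 / SS / MorseC : pre-node + rational + `DData` ⟹ node   (task SS-MorseC)

SKETCH.
 * START: `S T ∈ 𝔪_Vi ∩ 𝔪_V0 ∩ O`; `ψ := ϖ⁻¹ S T ∈ Vi ∩ V0` (`Branches.div_mem_i`, `div_mem_0`), `ϖ^1 ψ = S T ∈ O`, so `ψ ∈ O` (`Branches.sat_loc` with `k = 1`):  `S T = rE 0 + ϖ^1 ψ`.
 * ITERATE `PreNode.step`: for every `k ≥ 1` there are `S T ρ ψ` with `PreNode`, `ψ ∈ O`, `S T = ρ + ϖ^k ψ` (induction on `k`).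
 * `c₀ ≠ 0`: `c₀ ∣ ϖ^a` for some `a` (`IsDiscreteValuationRing.associated_pow_irreducible hD.ne hϖ`).  Take `k = a + 1`.
   If `ϖ^(a+1) ∣ ρ`, `ρ = ϖ^(a+1) ρ₁`: `S T = ϖ^(a+1) (ρ₁ + ψ)` contradicts `PreNode.mul_ne`.
   Otherwise `ρ ≠ 0`, `ρ = u ϖ^b` (`u` a unit, `associated_pow_irreducible`), `b ≤ a` (else `ϖ^(a+1) ∣ ρ`).  `S T = ρ υ`, `υ := 1 + ϖ^(a+1-b) u⁻¹ ψ`, a `LocUnit` (`LocUnit.one_add`; `a+1-b ≥ 1`).
   `S' := S υ⁻¹`, `T' := T`, `ϖ₀ := ρ`.  `PreNode S' T`: `InMax.mul_right`; `υ⁻¹ ∈ O ⊆ Vi`; `υ⁻¹ ∉ 𝔪_V0` (`LocUnit.notMem_nonunits` for `υ⁻¹`, which is a `LocUnit` too) + `ss_mul_notMem`; generation: `S b = S' (υ b)`.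
 * `PreNode.ndAt`: unfold `NdAt`.
-/

noncomputable section

namespace Fermat.Agent.S34

open Polynomial IntermediateField Fermat.Agent.S18

variable {R K F₁ F : Type} [CommRing R] [IsDomain R] [IsDiscreteValuationRing R] [Field K] [CharZero K]
  [Algebra R K] [IsFractionRing R K] [Field F₁] [Algebra K F₁] [Field F] [Algebra K F] {ϖ : R}

theorem morseC_inMax_pow {t : F} {n : Ideal (CInt R K t)} [n.IsPrime] {z : F} (hz : InMax n z)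
    {k : ℕ} (hk : 1 ≤ k) : InMax n (z ^ k) := by
  obtain ⟨j, rfl⟩ : ∃ j, k = j + 1 := ⟨k - 1, by omega⟩
  rw [pow_succ']
  exact InMax.mul_right hz (hz.inLoc.pow j)

theorem PreNode.exists_mul_eq (hϖ : Irreducible ϖ) {x : F} {Vi V0 : ValuationSubring F}
    (hB : Branches (K := K) ϖ x Vi V0) {t : F} (ht : t = x ∨ t = x⁻¹)
    {n : Ideal (CInt R K t)} (hn : IsClosedPt ϖ n) (hrat : IsRat n) (hi : Centered Vi n)
    (h0 : Centered V0 n) {S T : F} (h : PreNode ϖ Vi V0 n S T) {D D' : F} {c₀ : R}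
    (hD : DData Vi V0 n D D' c₀) :
    ∃ (S' T' : F) (ϖ₀ : R), ϖ₀ ≠ 0 ∧ PreNode ϖ Vi V0 n S' T' ∧ S' * T' = rE R K F ϖ₀ := by
  haveI hp := hn.max.isPrime
  have hVi : ∀ y ∈ CInt R K t, y ∈ Vi := fun y hy => (hB.mem_of_mem_CInt hϖ ht hy).1
  have hV0 : ∀ y ∈ CInt R K t, y ∈ V0 := fun y hy => (hB.mem_of_mem_CInt hϖ ht hy).2
  have hp0 : rE R K F ϖ ≠ 0 := ss_rE_ne_zero hϖ
  -- iterate
  have iter : ∀ k : ℕ, ∃ (S T : F) (ρ : R) (ψ : F), PreNode ϖ Vi V0 n S T ∧ InLoc n ψ ∧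
      S * T = rE R K F ρ + rE R K F ϖ ^ (k + 1) * ψ := by
    intro k
    induction k with
    | zero =>
      have hSTi : S * T ∈ Vi.nonunits :=
        mul_mem_nonunits' Vi h.S_i (hi.mem_of_inLoc hVi h.T_max.inLoc)
      have hST0 : S * T ∈ V0.nonunits :=
        mul_mem_nonunits V0 (h0.mem_of_inLoc hV0 h.S_max.inLoc) h.T_0
      refine ⟨S, T, 0, (rE R K F ϖ)⁻¹ * (S * T), h, ?_, ?_⟩
      · refine hB.sat_loc hϖ ht 1 ?_ (hB.div_mem_i hSTi) (hB.div_mem_0 hST0)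
        rw [pow_one, ← mul_assoc, mul_inv_cancel₀ hp0, one_mul]
        exact h.S_max.inLoc.mul h.T_max.inLoc
      · rw [map_zero, zero_add, zero_add, pow_one, ← mul_assoc, mul_inv_cancel₀ hp0, one_mul]
    | succ k ih =>
      obtain ⟨S, T, ρ, ψ, hST, hψ, e⟩ := ih
      exact hST.step hϖ hB ht hn hrat hi h0 (by omega) hψ e
  obtain ⟨a, ha⟩ := IsDiscreteValuationRing.associated_pow_irreducible hD.ne hϖ
  have hdvd : c₀ ∣ ϖ ^ a := ha.dvd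
  obtain ⟨S, T, ρ, ψ, hST, hψ, e⟩ := iter a
  by_cases hρ : ϖ ^ (a + 1) ∣ ρ
  · exfalso
    obtain ⟨ρ₁, rfl⟩ := hρ
    refine hST.mul_ne hϖ hB ht hn hi h0 hD hdvd (φ := rE R K F ρ₁ + ψ) ((InLoc.rE ρ₁).add hψ) ?_
    rw [e, map_mul, map_pow]
    ring
  · have hρ0 : ρ ≠ 0 := by
      rintro rfl
      exact hρ (dvd_zero _)
    obtain ⟨b, hb⟩ := IsDiscreteValuationRing.associated_pow_irreducible hρ0 hϖ
    obtain ⟨u, hu⟩ := hb
    have hba : b ≤ a := by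
      by_contra hcon
      push Not at hcon
      apply hρ
      have e1 : ρ = ϖ ^ b * ((u⁻¹ : Rˣ) : R) := by rw [← hu, mul_assoc, Units.mul_inv, mul_one]
      rw [e1]
      exact Dvd.dvd.mul_right (pow_dvd_pow ϖ hcon) _
    have hmax : InMax n (rE R K F ϖ ^ (a + 1 - b) * (rE R K F (u : R) * ψ)) :=
      InMax.mul_right (morseC_inMax_pow hn.inMax_unif (by omega)) ((InLoc.rE _).mul hψ)
    have hυ := LocUnit.one_add hmax
    obtain ⟨υ, hυdef⟩ : ∃ υ : F, υ = 1 + rE R K F ϖ ^ (a + 1 - b) * (rE R K F (u : R) * ψ) :=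
      ⟨_, rfl⟩
    rw [← hυdef] at hυ
    have hυinv : LocUnit n υ⁻¹ := ⟨inv_ne_zero hυ.1, hυ.2.2, by rw [inv_inv]; exact hυ.2.1⟩
    have hSTυ : S * T = rE R K F ρ * υ := by
      have e1 : rE R K F ϖ ^ (a + 1) = rE R K F ρ * rE R K F (u : R) * rE R K F ϖ ^ (a + 1 - b) := by
        rw [← map_mul, hu, map_pow, ← pow_add]
        congr 1
        omega
      rw [e, e1, hυdef]
      ring
    refine ⟨S * υ⁻¹, T, ρ, hρ0, ?_, ?_⟩
    · refine ⟨hST.S_max.mul_right hυ.2.2, hST.T_max,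
        mul_mem_nonunits' Vi hST.S_i (hi.mem_of_inLoc hVi hυ.2.2), hST.T_0,
        ss_mul_notMem V0 hST.S_0 (LocUnit.notMem_nonunits hV0 h0 hυinv), hST.T_i, ?_⟩
      intro z hz
      obtain ⟨a', b', c', ha', hb', hc', e'⟩ := hST.gen z hz
      refine ⟨a', υ * b', c', ha', hυ.2.1.mul hb', hc', ?_⟩
      have e2 : S * υ⁻¹ * (υ * b') = S * b' := by
        rw [mul_assoc, ← mul_assoc υ⁻¹, inv_mul_cancel₀ hυ.1, one_mul]
      rw [e', e2]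
    · rw [mul_right_comm, hSTυ, mul_assoc, mul_inv_cancel₀ hυ.1, mul_one]

theorem PreNode.ndAt {Vi V0 : ValuationSubring F} {t : F} {n : Ideal (CInt R K t)} {S T : F}
    (h : PreNode ϖ Vi V0 n S T) {ϖ₀ : R} (h0 : ϖ₀ ≠ 0) (e : S * T = rE R K F ϖ₀) : NdAt ϖ n :=
  ⟨S, T, ϖ₀, h0, h.S_max, h.T_max, e, h.gen⟩

end Fermat.Agent.S34
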