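import Fermat.Agent.S34.SS.Basic

set_option autoImplicit false
set_option linter.unusedSectionVars false

/-!
# S34 / SS / Prim : a closed point contains a primitive polynomial in `t`   (task SS-Prim)

SKETCH.  `φ : R[X] →+* C`, `s ↦ ⟨evR R K t s, evR_mem_CInt t s⟩` is integral (every element of `C` is integral over `R[X]` by definition of `CInt`;
 transport the monic equation from `F` to the subring `C`).  `n` maximal ⟹ `P := n.comap φ` is maximal
 (`Ideal.isMaximal_comap_of_isIntegral_of_isMaximal'` (ring hom version), or put the algebra structure `φ.toAlgebra`).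
 `C ϖ ∈ P`.  If every `s ∈ P` were divisible by `C ϖ`, then `P = span {C ϖ}` would be maximal, i.e. `R[X] ⧸ span {C ϖ}` a field.  But
 `span {C ϖ} = (span {ϖ}).map C` and `R[X] ⧸ I.map C ≃+* (R ⧸ I)[X]` (`Ideal.polynomialQuotientEquivQuotientPolynomial`), never a field
 (`Polynomial.not_isField`).   Elementary alternative: `X ∉ P` or `X ∈ P`; if `P = (C ϖ)` is maximal then `X` is invertible mod `ϖ`:
 `X * u = 1 + C ϖ * v`; evaluate the coefficient `0`: `0 = 1 + ϖ * v₀`, so `ϖ` is a unit: contradiction with `hϖ.not_isUnit`.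
-/

noncomputable section

namespace Fermat.Agent.S34

open Polynomial IntermediateField Fermat.Agent.S18

variable {R K F₁ F : Type} [CommRing R] [IsDomain R] [IsDiscreteValuationRing R] [Field K] [CharZero K]
  [Algebra R K] [IsFractionRing R K] [Field F₁] [Algebra K F₁] [Field F] [Algebra K F] {ϖ : R}

theorem exists_prim_mem (hϖ : Irreducible ϖ) {t : F} {n : Ideal (CInt R K t)}
    (hn : IsClosedPt ϖ n) :
    ∃ s : R[X], ¬ C ϖ ∣ s ∧ (⟨evR R K t s, evR_mem_CInt t s⟩ : CInt R K t) ∈ n := by
  by_contra hcon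
  push Not at hcon
  set φ : R[X] →+* CInt R K t := (evR R K t).codRestrict (CInt R K t) (evR_mem_CInt t) with hφ
  have hφint : φ.IsIntegral := by
    intro c
    obtain ⟨P, hPm, hP⟩ := c.2
    refine ⟨P, hPm, Subtype.ext ?_⟩
    have h1 := hom_eval₂ P φ (CInt R K t).subtype c
    have h2 : (CInt R K t).subtype.comp φ = evR R K t := by
      ext1 <;> rfl
    rw [h2] at h1
    exact h1.trans hP
  haveI := hn.max
  have hmax : (n.comap φ).IsMaximal := Ideal.isMaximal_comap_of_isIntegral_of_isMaximal' φ hφint n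
  have hdvd : ∀ s ∈ n.comap φ, C ϖ ∣ s := by
    intro s hs
    by_contra h
    exact hcon s h hs
  have hX : (X : R[X]) ∉ n.comap φ := by
    intro h
    obtain ⟨v, hv⟩ := hdvd X h
    have h1 := congrArg (fun p : R[X] => p.coeff 1) hv
    simp only [coeff_X_one, coeff_C_mul] at h1
    exact hϖ.not_isUnit (IsUnit.of_mul_eq_one _ h1.symm)
  obtain ⟨y, i, hi, e⟩ := hmax.exists_inv hX
  obtain ⟨v, hv⟩ := hdvd i hi
  have h1 := congrArg (fun p : R[X] => p.coeff 0) e
  simp only [coeff_add, mul_coeff_zero, coeff_X_zero, mul_zero, zero_add, coeff_one_zero, hv,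
    coeff_C_zero] at h1
  exact hϖ.not_isUnit (IsUnit.of_mul_eq_one _ h1)

end Fermat.Agent.S34
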