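import Fermat.Agent.S34.SS.NT
import Fermat.Agent.S34.SS.DedC
import Fermat.Agent.S34.SS.Prim

set_option autoImplicit false
set_option linter.unusedSectionVars false

/-!
# S34 / SS / Pre : a closed point on both branches is a pre-node   (task SS-Pre)

Notation: `𝔭i = C ∩ 𝔪_Vi`, `𝔭0 = C ∩ 𝔪_V0`, both `⊆ n` (`hi`, `h0`);  `𝔭i ∩ 𝔭0 = ϖ C` (`Branches.exists_eq_mul`).
`n1 := n.comap ι1|C₁`, `n2 := n.comap ι2|C₁` (primes of `C₁` containing `ϖ`).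

SKETCH.  It is enough to prove the ONE-SIDED lemma `pre_half` and to apply it twice (`(Vi, V0, ι1, ι2)` gives `T`, `(V0, Vi, ι2, ι1)` gives `S`).
 `pre_half` (branch `V` seen through `ιa`, other branch `V'` seen through `ιb`):  ∃ `T ∈ C`, `T ∈ n`, `T ∈ 𝔪_V'`, `T ∉ 𝔪_V`, and
   ∀ `w ∈ n` ∃ `e ∉ n`, `a ∈ C`, `p ∈ C ∩ 𝔪_V`:  `e w = T a + p`.
  Proof. `X₁` local generator of `na := n.comap ιa`.  Frobenius of the side `V'` (`ιa` is ITS `ιb`): `X' ∈ C₁`, `ιa X₁ - (ιb X')^q ∈ 𝔪_V'`.  `T := ιa X₁ - (ιb X')^q`.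
  Frobenius of the side `V`: `X'' ∈ C₁`, `ιb X' - (ιa X'')^q ∈ 𝔪_V`, so `(ιb X')^q - (ιa X'')^(q*q) ∈ 𝔪_V` (`ss_pow_sub_pow_mem`).
  `T ∈ 𝔭' ⊆ n`, `ιa X₁ ∈ n` ⟹ `(ιb X')^q ∈ n` ⟹ `ιb X' ∈ n` ⟹ `(ιa X'')^q ∈ n` (difference in `𝔭 ⊆ n`) ⟹ `X'' ∈ na`.
  `T₁ := X₁ - X''^(q*q)` is a local generator of `na` (`IsLocGen.sub_pow`, `2 ≤ q*q`), and `T - ιa T₁ ∈ 𝔪_V`.
  Generation: `w ∈ n`, `w = ιa y + p₀` (`Side.exists_sub_mem`), `y ∈ na`, `d y = T₁ a + ϖ b`:  `ιa d * w = T * ιa a + [ (ιa T₁ - T) ιa a + ϖ ιa b + ιa d * p₀ ]`.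
  `T ∉ 𝔪_V`: otherwise `T₁ ∈ 𝔪₁` (`comap_nonunits`), hence every `y ∈ na` lies in `𝔪₁` (`d y = T₁ a + ϖ b ∈ 𝔪₁`, `d ∉ na ⊇ C₁ ∩ 𝔪₁` [`ιa` maps `C₁ ∩ 𝔪₁` into `𝔭 ⊆ n`], `ss_mul_notMem`).
   But `exists_prim_mem` gives `c = s(t) ∈ n`, `¬ C ϖ ∣ s`, a unit of `V` (its inverse is `InO`, so it lies in `Vi ∩ V0` by `Branches.inO_iff'`); `c = ιa y + p₀`, `y ∈ na`, `ιa y ∉ 𝔪_V` (`ss_notMem_of_sub`): contradiction.
 ASSEMBLY.  `z` with `d₀ z = w ∈ n`.  `e w = T a + p`, `p ∈ 𝔭i ⊆ n`;  second half applied to `p`: `e' p = S a' + p'`, `p' ∈ 𝔭0`; and `p' = e' p - S a' ∈ 𝔭i` (`S ∈ 𝔭i`), so `p' = ϖ p''`.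
  `(e' e d₀) z = T (e' a) + S a' + ϖ p''`; divide by `e' e d₀ ∉ n`.
-/

noncomputable section

namespace Fermat.Agent.S34

open Polynomial IntermediateField Fermat.Agent.S18

variable {R K F₁ F : Type} [CommRing R] [IsDomain R] [IsDiscreteValuationRing R] [Field K] [CharZero K]
  [Algebra R K] [IsFractionRing R K] [Field F₁] [Algebra K F₁] [Field F] [Algebra K F] {ϖ : R}

/-- the restriction of a degeneracy map to the charts. -/
def preRes {t₁ : F₁} {t : F} (ι : F₁ →ₐ[K] F) (h : ∀ y ∈ CInt R K t₁, ι y ∈ CInt R K t) :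
    CInt R K t₁ →+* CInt R K t :=
  (ι : F₁ →+* F).restrict (CInt R K t₁) (CInt R K t) h

theorem coe_preRes {t₁ : F₁} {t : F} (ι : F₁ →ₐ[K] F) (h : ∀ y ∈ CInt R K t₁, ι y ∈ CInt R K t)
    (y : CInt R K t₁) : ((preRes ι h y : CInt R K t) : F) = ι (y : F₁) := rfl

/-- the one-sided statement. -/
theorem pre_half (hϖ : Irreducible ϖ) {q : ℕ} (hq : 2 ≤ q) {t : F} {t₁ : F₁}
    {V₁ : ValuationSubring F₁} {V V' : ValuationSubring F} {ιa ιb : F₁ →ₐ[K] F}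
    (h1 : Chart1 K ϖ t₁ V₁) (hs : Side R q t₁ V₁ t V ιa ιb) (hs' : Side R q t₁ V₁ t V' ιb ιa)
    {n : Ideal (CInt R K t)} (hn : IsClosedPt ϖ n) (hc : Centered V n) (hc' : Centered V' n)
    (hprim : ∀ s : R[X], ¬ C ϖ ∣ s → evR R K t s ∉ V.nonunits) :
    ∃ T : CInt R K t, T ∈ n ∧ (T : F) ∈ V'.nonunits ∧ (T : F) ∉ V.nonunits ∧
      ∀ w ∈ n, ∃ e ∉ n, ∃ a p : CInt R K t, (p : F) ∈ V.nonunits ∧ e * w = T * a + p := by
  haveI hp := hn.max.isPrime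
  set ιA := preRes (R := R) ιa hs.mapC_a with hιA
  set ιB := preRes (R := R) ιb hs.mapC_b with hιB
  set na := n.comap ιA with hna
  haveI hpa : na.IsPrime := Ideal.comap_isPrime ιA n
  have hunif : ιA (unifC t₁ ϖ) = unifC t ϖ := Subtype.ext (ss_algHom_rE ιa ϖ)
  have hmem : unifC t₁ ϖ ∈ na := by
    rw [hna, Ideal.mem_comap, hunif]; exact hn.mem
  have hϖV : rE R K F ϖ ∈ V.nonunits := by
    rw [← ss_algHom_rE ιa ϖ, hs.comap_nonunits]; exact h1.mem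
  have hCV : ∀ c : CInt R K t, (c : F) ∈ V := fun c => hs.C_le _ c.2
  obtain ⟨X₁, hX₁⟩ := h1.exists_locGen hϖ na hmem
  obtain ⟨X', hX'C, hX'⟩ := hs'.frob X₁ X₁.2
  obtain ⟨X'', hX''C, hX''⟩ := hs.frob X' hX'C
  set Y' : CInt R K t₁ := ⟨X', hX'C⟩ with hY'
  set Y'' : CInt R K t₁ := ⟨X'', hX''C⟩ with hY''
  set T : CInt R K t := ιA X₁ - ιB Y' ^ q with hT
  have hTcoe : (T : F) = ιa X₁ - ιb X' ^ q := rfl
  have hTV' : (T : F) ∈ V'.nonunits := hX'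
  have hTn : T ∈ n := hc' T hTV'
  have hX₁n : ιA X₁ ∈ n := hX₁.1
  have hB'n : ιB Y' ∈ n := by
    apply hp.mem_of_pow_mem q
    have : ιB Y' ^ q = ιA X₁ - T := by rw [hT]; ring
    rw [this]
    exact n.sub_mem hX₁n hTn
  have hdiff : ιB Y' - ιA Y'' ^ q ∈ n := hc _ hX''
  have hY''na : Y'' ∈ na := by
    rw [hna, Ideal.mem_comap]
    apply hp.mem_of_pow_mem q
    have : ιA Y'' ^ q = ιB Y' - (ιB Y' - ιA Y'' ^ q) := by ring
    rw [this]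
    exact n.sub_mem hB'n hdiff
  have hqq : 2 ≤ q * q := by nlinarith
  set T₁ : CInt R K t₁ := X₁ - Y'' ^ (q * q) with hT₁
  have hT₁gen : IsLocGen ϖ na T₁ := hX₁.sub_pow hY''na hqq
  -- `T - ιa T₁ ∈ 𝔪_V`
  have hTT₁ : ((ιA T₁ - T : CInt R K t) : F) ∈ V.nonunits := by
    have e : ((ιA T₁ - T : CInt R K t) : F) = (ιb X') ^ q - ((ιa X'') ^ q) ^ q := by
      have : ιA T₁ - T = ιB Y' ^ q - (ιA Y'' ^ q) ^ q := by
        rw [hT, hT₁, map_sub, map_pow, pow_mul]; ring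
      rw [this]; rfl
    rw [e]
    exact ss_pow_sub_pow_mem V (hCV (ιB Y')) (hCV (ιA Y'' ^ q)) hX'' q
  -- decomposition of the elements of `n`
  have hdec : ∀ w ∈ n, ∃ y ∈ na, ((w - ιA y : CInt R K t) : F) ∈ V.nonunits := by
    intro w hw
    obtain ⟨y, hyC, hy⟩ := hs.exists_sub_mem hϖ h1 w.2
    refine ⟨⟨y, hyC⟩, ?_, hy⟩
    rw [hna, Ideal.mem_comap]
    have h2 : w - ιA ⟨y, hyC⟩ ∈ n := hc _ hy
    have : ιA ⟨y, hyC⟩ = w - (w - ιA ⟨y, hyC⟩) := by ring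
    rw [this]
    exact n.sub_mem hw h2
  refine ⟨T, hTn, hTV', ?_, ?_⟩
  · intro hTV
    have hT₁V : (T₁ : F₁) ∈ V₁.nonunits := by
      rw [← hs.comap_nonunits]
      have : ιa (T₁ : F₁) = ((ιA T₁ - T : CInt R K t) : F) + (T : F) := by
        have e1 : ((ιA T₁ - T : CInt R K t) : F) = ιa (T₁ : F₁) - (T : F) := rfl
        rw [e1, sub_add_cancel]
      rw [this]
      exact add_mem_nonunits V hTT₁ hTV
    have hall : ∀ y ∈ na, (y : F₁) ∈ V₁.nonunits := by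
      intro y hy
      obtain ⟨d, hd, a, b, hdy⟩ := hT₁gen.2 y hy
      have hd' : (d : F₁) ∉ V₁.nonunits := by
        intro hdV
        apply hd
        rw [hna, Ideal.mem_comap]
        exact hc _ ((hs.comap_nonunits d).2 hdV)
      by_contra hyV
      apply ss_mul_notMem V₁ hd' hyV
      have : (d : F₁) * (y : F₁) = (T₁ : F₁) * a + rE R K F₁ ϖ * b := congrArg Subtype.val hdy
      rw [this]
      exact add_mem_nonunits V₁ (mul_mem_nonunits' V₁ hT₁V (h1.C_le hϖ a.2))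
        (mul_mem_nonunits' V₁ h1.mem (h1.C_le hϖ b.2))
    obtain ⟨s, hs1, hs2⟩ := exists_prim_mem hϖ hn
    obtain ⟨y, hy, hyV⟩ := hdec _ hs2
    have h3 := ss_notMem_of_sub V (hprim s hs1) hyV
    exact h3 ((hs.comap_nonunits y).2 (hall y hy))
  · intro w hw
    obtain ⟨y, hy, hyV⟩ := hdec w hw
    obtain ⟨d, hd, a, b, hdy⟩ := hT₁gen.2 y hy
    refine ⟨ιA d, hd, ιA a, (ιA T₁ - T) * ιA a + unifC t ϖ * ιA b + ιA d * (w - ιA y), ?_, ?_⟩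
    · rw [Subring.coe_add, Subring.coe_add, Subring.coe_mul, Subring.coe_mul, Subring.coe_mul]
      exact add_mem_nonunits V (add_mem_nonunits V (mul_mem_nonunits' V hTT₁ (hCV _))
        (mul_mem_nonunits' V hϖV (hCV _))) (mul_mem_nonunits V (hCV _) hyV)
    · have h4 := congrArg ιA hdy
      rw [map_mul, map_add, map_mul, map_mul, hunif] at h4
      linear_combination h4

theorem pre_prim (hϖ : Irreducible ϖ) {x : F} {Vi V0 : ValuationSubring F}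
    (hB : Branches (K := K) ϖ x Vi V0) {t : F} (ht : t = x ∨ t = x⁻¹) (s : R[X])
    (hs : ¬ C ϖ ∣ s) : evR R K t s ∉ Vi.nonunits ∧ evR R K t s ∉ V0.nonunits := by
  have hs0 : evR R K t s ≠ 0 := by
    intro h
    apply hs
    have : s = 0 := evR_injective (hB.trans' ht) (by rw [h, map_zero])
    rw [this]; exact dvd_zero _
  have h1 : InO K ϖ t (evR R K t s)⁻¹ := ⟨s, hs, by
    rw [mul_inv_cancel₀ hs0]; exact (CInt R K t).one_mem⟩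
  obtain ⟨h2, h3⟩ := (hB.inO_iff' hϖ ht _).1 h1
  constructor
  · rw [ss_mem_nonunits_iff, not_or, not_not]; exact ⟨hs0, h2⟩
  · rw [ss_mem_nonunits_iff, not_or, not_not]; exact ⟨hs0, h3⟩

theorem exists_preNode (hϖ : Irreducible ϖ) {q : ℕ} (hq : 2 ≤ q) {x : F} {Vi V0 : ValuationSubring F}
    (hB : Branches (K := K) ϖ x Vi V0) {t : F} (ht : t = x ∨ t = x⁻¹) {t₁ : F₁}
    {V₁ : ValuationSubring F₁} {ι1 ι2 : F₁ →ₐ[K] F} (h1 : Chart1 K ϖ t₁ V₁)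
    (hsi : Side R q t₁ V₁ t Vi ι1 ι2) (hs0 : Side R q t₁ V₁ t V0 ι2 ι1)
    {n : Ideal (CInt R K t)} (hn : IsClosedPt ϖ n) (hi : Centered Vi n) (h0 : Centered V0 n) :
    ∃ S T : F, PreNode ϖ Vi V0 n S T := by
  haveI hp := hn.max.isPrime
  obtain ⟨T, hTn, hT0, hTi, hTgen⟩ := pre_half hϖ hq h1 hsi hs0 hn hi h0
    (fun s hs => (pre_prim hϖ hB ht s hs).1)
  obtain ⟨S, hSn, hSi, hS0, hSgen⟩ := pre_half hϖ hq h1 hs0 hsi hn h0 hi
    (fun s hs => (pre_prim hϖ hB ht s hs).2)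
  refine ⟨S, T, InMax.of_mem hSn, InMax.of_mem hTn, hSi, hT0, hS0, hTi, ?_⟩
  rintro z ⟨d₀, hd₀, w, hw, hz⟩
  obtain ⟨e, he, a, p, hpV, h2⟩ := hTgen w hw
  obtain ⟨e', he', a', p', hp'V, h3⟩ := hSgen p (hi p hpV)
  have hp'i : (p' : F) ∈ Vi.nonunits := by
    have : p' = e' * p - S * a' := by rw [h3]; ring
    rw [this]
    show (e' : F) * (p : F) - (S : F) * (a' : F) ∈ Vi.nonunits
    exact sub_mem_nonunits Vi (mul_mem_nonunits Vi (hsi.C_le _ e'.2) hpV)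
      (mul_mem_nonunits' Vi hSi (hsi.C_le _ a'.2))
  obtain ⟨p'', hp''C, hp''⟩ := hB.exists_eq_mul hϖ ht p'.2 hp'i hp'V
  set E : CInt R K t := e' * e * d₀ with hE
  have hEn : E ∉ n := loc_mul_notMem (loc_mul_notMem he' he) hd₀
  have hE0 : (E : F) ≠ 0 := ss_coe_ne_zero hEn
  have hinv := InLoc.inv_of_notMem hEn
  refine ⟨p'' * (E : F)⁻¹, (a' : F) * (E : F)⁻¹, ((e' * a : CInt R K t) : F) * (E : F)⁻¹,
    (InLoc.of_mem n hp''C).mul hinv, (InLoc.of_mem n a'.2).mul hinv,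
    (InLoc.of_mem n (e' * a).2).mul hinv, ?_⟩
  have h2' : (e : F) * (w : F) = (T : F) * a + p := congrArg Subtype.val h2
  have h3' : (e' : F) * (p : F) = (S : F) * a' + p' := congrArg Subtype.val h3
  have hEz : (E : F) * z = rE R K F ϖ * p'' + (S : F) * a' + (T : F) * ((e' : F) * a) := by
    rw [hE, Subring.coe_mul, Subring.coe_mul, ← hp'']
    linear_combination (e' : F) * (e : F) * hz + (e' : F) * h2' + h3'
  have hfin : z = (E : F)⁻¹ * ((E : F) * z) := by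
    rw [← mul_assoc, inv_mul_cancel₀ hE0, one_mul]
  have hcoe : ((e' * a : CInt R K t) : F) = (e' : F) * (a : F) := rfl
  rw [hcoe]
  generalize (E : F)⁻¹ = Ei at hfin ⊢
  rw [hfin, hEz]
  ring

end Fermat.Agent.S34
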