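import Fermat.Agent.S34.SS.Sm
import Fermat.Agent.S34.SS.Pre
import Fermat.Agent.S34.SS.MorseC
import Fermat.Agent.S34.SS.Cusp

set_option autoImplicit false
set_option linter.unusedSectionVars false

/-!
# S34 / SS / Final : the structure theorem of the special fibre
-/

noncomputable section

namespace Fermat.Agent.S34

open Polynomial IntermediateField Fermat.Agent.S18

variable {R K F₁ F : Type} [CommRing R] [IsDomain R] [IsDiscreteValuationRing R] [Field K] [CharZero K]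
  [Algebra R K] [IsFractionRing R K] [Field F₁] [Algebra K F₁] [Field F] [Algebra K F] {ϖ : R}

variable {q : ℕ} {x : F} {Vi V0 : ValuationSubring F} {t : F} {t₁ : F₁} {V₁ : ValuationSubring F₁}
  {ι1 ι2 : F₁ →ₐ[K] F}

/-- if the other branch is not centred at `n`, then `C ∩ 𝔪_V = (ϖ)` locally at `n`. -/
theorem ss_sat_i (hϖ : Irreducible ϖ) (hB : Branches (K := K) ϖ x Vi V0) (ht : t = x ∨ t = x⁻¹)
    {n : Ideal (CInt R K t)} (h0 : ¬ Centered V0 n) :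
    ∃ d : CInt R K t, d ∉ n ∧ ∀ p : CInt R K t, (p : F) ∈ Vi.nonunits →
      ∃ p' : CInt R K t, d * p = unifC t ϖ * p' := by
  unfold Centered at h0
  push_neg at h0
  obtain ⟨d, hd, hdn⟩ := h0
  refine ⟨d, hdn, fun p hp => ?_⟩
  obtain ⟨y', hy', e⟩ := hB.exists_eq_mul hϖ ht (d * p).2
    (by rw [Subring.coe_mul]; exact mul_mem_nonunits Vi (hB.mem_of_mem_CInt hϖ ht d.2).1 hp)
    (by rw [Subring.coe_mul]; exact mul_mem_nonunits' V0 hd (hB.mem_of_mem_CInt hϖ ht p.2).2)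
  exact ⟨⟨y', hy'⟩, Subtype.ext e⟩

theorem ss_sat_0 (hϖ : Irreducible ϖ) (hB : Branches (K := K) ϖ x Vi V0) (ht : t = x ∨ t = x⁻¹)
    {n : Ideal (CInt R K t)} (hi : ¬ Centered Vi n) :
    ∃ d : CInt R K t, d ∉ n ∧ ∀ p : CInt R K t, (p : F) ∈ V0.nonunits →
      ∃ p' : CInt R K t, d * p = unifC t ϖ * p' := by
  unfold Centered at hi
  push_neg at hi
  obtain ⟨d, hd, hdn⟩ := hi
  refine ⟨d, hdn, fun p hp => ?_⟩
  obtain ⟨y', hy', e⟩ := hB.exists_eq_mul hϖ ht (d * p).2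
    (by rw [Subring.coe_mul]; exact mul_mem_nonunits' Vi hd (hB.mem_of_mem_CInt hϖ ht p.2).1)
    (by rw [Subring.coe_mul]; exact mul_mem_nonunits V0 (hB.mem_of_mem_CInt hϖ ht d.2).2 hp)
  exact ⟨⟨y', hy'⟩, Subtype.ext e⟩

/-- refined form at the points where the two branches meet. -/
theorem exists_node (hϖ : Irreducible ϖ) (hq : 2 ≤ q) (hB : Branches (K := K) ϖ x Vi V0)
    (ht : t = x ∨ t = x⁻¹) (h1 : Chart1 K ϖ t₁ V₁) (hsi : Side R q t₁ V₁ t Vi ι1 ι2)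
    (hs0 : Side R q t₁ V₁ t V0 ι2 ι1) {J D D' g Jq : F} {c₀ : R}
    (hJ : JData (K := K) ϖ q t Vi V0 J D D' g Jq c₀) {n : Ideal (CInt R K t)} (hn : IsClosedPt ϖ n)
    (hrat : IsRat n) (hi : Centered Vi n) (h0 : Centered V0 n) :
    ∃ (S T : F) (ϖ₀ : R), ϖ₀ ≠ 0 ∧ PreNode ϖ Vi V0 n S T ∧ S * T = rE R K F ϖ₀ := by
  obtain ⟨S, T, h⟩ := exists_preNode hϖ hq hB ht h1 hsi hs0 hn hi h0
  exact h.exists_mul_eq hϖ hB ht hn hrat hi h0 (hJ.dData hϖ (by omega) hB ht hn hi h0)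

/-- **chapter SS**. -/
theorem ssAt_of_sides (hϖ : Irreducible ϖ) (hq : 2 ≤ q) (hB : Branches (K := K) ϖ x Vi V0)
    (ht : t = x ∨ t = x⁻¹) (h1 : Chart1 K ϖ t₁ V₁) (hsi : Side R q t₁ V₁ t Vi ι1 ι2)
    (hs0 : Side R q t₁ V₁ t V0 ι2 ι1) {J D D' g Jq : F} {c₀ : R}
    (hJ : JData (K := K) ϖ q t Vi V0 J D D' g Jq c₀) : SSAt (R := R) (K := K) ϖ t := by
  intro n hn hrat
  by_cases hi : Centered Vi n
  · by_cases h0 : Centered V0 n
    · obtain ⟨S, T, ϖ₀, hne, h, e⟩ := exists_node hϖ hq hB ht h1 hsi hs0 hJ hn hrat hi h0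
      exact Or.inr (h.ndAt hne e)
    · exact Or.inl (hsi.smAt hϖ h1 hn hi (ss_sat_i hϖ hB ht h0))
  · have h0 : Centered V0 n := (hB.centered_or hϖ ht hn).resolve_left hi
    exact Or.inl (hs0.smAt hϖ h1 hn h0 (ss_sat_0 hϖ hB ht hi))

end Fermat.Agent.S34
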