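import Fermat.Agent.S34.SS.Res
import Fermat.Agent.S34.LF

set_option autoImplicit false
set_option linter.unusedSectionVars false

/-!
# S34 / SS / DedA : `C₁ / ϖ` is a domain and integrally closed   (task SS-DedA)

`C₁ = CInt R K t₁`, `I = Ideal.span {unifC t₁ ϖ}`, `Z = C₁ ⧸ I`.

SKETCH.
 * `mem_span_unif_iff`: `Chart1.exists_eq_mul` (⟸) and `mul_mem_nonunits'` + `h1.mem` + `Chart1.C_le` (⟹).
 * `isPrime_span_unif`: `1 ∉ 𝔪₁`; `a b ∈ 𝔪₁ ⟹ a ∈ 𝔪₁ ∨ b ∈ 𝔪₁` (`ss_mul_notMem`).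
 * `isIntegrallyClosed_quot`: `isIntegrallyClosed_iff (FractionRing Z)`.  `ξ = ā / b̄` (`IsFractionRing.div_surjective`), `a b : C₁`, `b ∉ I`, integral over `Z`:
   monic `Q : Z[X]`, `Q(ξ) = 0`.  Lift `Q` to a monic `Q̃ : C₁[X]` (`Polynomial.lifts_and_degree_eq_and_monic` / `lifts_and_natDegree_eq_and_monic`, the quotient map is surjective).
   `ε := a / b ∈ V₁` (`b` is a unit of `V₁`).  CLAIM `(Q̃.map C₁.subtype).eval ε ∈ 𝔪₁`: with `N = natDegree`, `b^N * Q̃(ε) = ∑ c_j a^j b^(N-j) =: e ∈ C₁`, whose image in `Z` is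
   `b̄^N * Q(ξ) = 0` computed in `FractionRing Z` (injectivity of `Z → FractionRing Z`); so `e ∈ 𝔪₁` and `Q̃(ε) = e / b^N ∈ 𝔪₁`.
   (Mathlib shortcut for the homogenisation: `Polynomial.eval₂_div_..`/`Polynomial.homogenize`-free: use `Polynomial.scaleRoots`: `b̄ ξ = ā` is a root of `Q.scaleRoots b̄`.)
   `Chart1.exists_of_monic`: `y ∈ C₁` with `ε - y ∈ 𝔪₁`; then `a - b y = b (ε - y) ∈ 𝔪₁ ∩ C₁ = I`, so `ā = b̄ ȳ`, `ξ = ȳ`.
-/

noncomputable section

namespace Fermat.Agent.S34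

open Polynomial IntermediateField Fermat.Agent.S18

variable {R K F₁ F : Type} [CommRing R] [IsDomain R] [IsDiscreteValuationRing R] [Field K] [CharZero K]
  [Algebra R K] [IsFractionRing R K] [Field F₁] [Algebra K F₁] [Field F] [Algebra K F] {ϖ : R}

variable {t₁ : F₁} {V₁ : ValuationSubring F₁}

theorem Chart1.mem_span_unif_iff (hϖ : Irreducible ϖ) (h1 : Chart1 K ϖ t₁ V₁) (y : CInt R K t₁) :
    y ∈ Ideal.span {unifC (K := K) t₁ ϖ} ↔ (y : F₁) ∈ V₁.nonunits := by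
  constructor
  · intro h
    obtain ⟨c, rfl⟩ := Ideal.mem_span_singleton'.1 h
    exact mul_mem_nonunits V₁ (h1.C_le hϖ c.2) h1.mem
  · intro h
    obtain ⟨y', hy', e⟩ := h1.exists_eq_mul hϖ y.2 h
    rw [Ideal.mem_span_singleton']
    exact ⟨⟨y', hy'⟩, Subtype.ext (by rw [e, mul_comm]; rfl)⟩

theorem Chart1.isPrime_span_unif (hϖ : Irreducible ϖ) (h1 : Chart1 K ϖ t₁ V₁) :
    (Ideal.span {unifC (K := K) t₁ ϖ}).IsPrime := by
  rw [Ideal.isPrime_iff]
  constructor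
  · rw [Ne, Ideal.eq_top_iff_one, h1.mem_span_unif_iff hϖ]
    exact one_notMem_nonunits V₁
  · intro x y hxy
    rw [h1.mem_span_unif_iff hϖ] at hxy ⊢
    rw [h1.mem_span_unif_iff hϖ]
    by_contra hcon
    push Not at hcon
    exact ss_mul_notMem V₁ hcon.1 hcon.2 hxy

theorem Chart1.isIntegrallyClosed_quot (hϖ : Irreducible ϖ) (h1 : Chart1 K ϖ t₁ V₁) :
    haveI := h1.isPrime_span_unif hϖ
    IsIntegrallyClosed (CInt R K t₁ ⧸ Ideal.span {unifC (K := K) t₁ ϖ}) := by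
  have hprime := h1.isPrime_span_unif hϖ
  set I : Ideal (CInt R K t₁) := Ideal.span {unifC (K := K) t₁ ϖ} with hI
  rw [isIntegrallyClosed_iff (FractionRing (CInt R K t₁ ⧸ I))]
  intro ξ hξ
  obtain ⟨x, y, hy, rfl⟩ := IsFractionRing.div_surjective (A := CInt R K t₁ ⧸ I) ξ
  obtain ⟨a, rfl⟩ := Ideal.Quotient.mk_surjective x
  obtain ⟨b, rfl⟩ := Ideal.Quotient.mk_surjective y
  obtain ⟨Q, hQm, hQ⟩ := hξ
  have hinj : Function.Injective
      (algebraMap (CInt R K t₁ ⧸ I) (FractionRing (CInt R K t₁ ⧸ I))) :=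
    IsFractionRing.injective _ _
  -- `b` is a unit of `V₁`
  have hbI : b ∉ I := by
    intro h
    have : Ideal.Quotient.mk I b = 0 := Ideal.Quotient.eq_zero_iff_mem.2 h
    exact nonZeroDivisors.ne_zero hy this
  have hbV : (b : F₁) ∉ V₁.nonunits := fun h => hbI ((h1.mem_span_unif_iff hϖ b).2 h)
  have hbinv : (b : F₁)⁻¹ ∈ V₁ := inv_mem_of_notMem_nonunits V₁ (h1.C_le hϖ b.2) hbV
  have hb0 : (b : F₁) ≠ 0 := by
    intro h
    apply hbV
    rw [h]
    exact zero_mem_nonunits V₁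
  -- the scaled polynomial kills `ā`
  have h2 := Polynomial.scaleRoots_eval₂_eq_zero_of_eval₂_div_eq_zero hinj hQ hy
  rw [Polynomial.eval₂_hom] at h2
  have h3 : (Q.scaleRoots (Ideal.Quotient.mk I b)).eval (Ideal.Quotient.mk I a) = 0 :=
    hinj (by rw [h2, map_zero])
  -- lift `Q`
  obtain ⟨Q', hQ'map, -, hQ'm⟩ := Polynomial.lifts_and_natDegree_eq_and_monic
    ((Polynomial.mem_lifts Q).2 (Polynomial.map_surjective _ Ideal.Quotient.mk_surjective Q)) hQm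
  have h4 : (Q'.scaleRoots b).map (Ideal.Quotient.mk I) = Q.scaleRoots (Ideal.Quotient.mk I b) := by
    rw [Polynomial.map_scaleRoots _ _ _ (by rw [hQ'm.leadingCoeff, map_one]; exact one_ne_zero),
      hQ'map]
  have h5 : (Q'.scaleRoots b).eval a ∈ I := by
    rw [← Ideal.Quotient.eq_zero_iff_mem, ← Polynomial.eval_map_apply, h4]
    exact h3
  rw [h1.mem_span_unif_iff hϖ] at h5
  set ε : F₁ := (a : F₁) * (b : F₁)⁻¹ with hε
  have hεV : ε ∈ V₁ := mul_mem (h1.C_le hϖ a.2) hbinv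
  have h6 : (((Q'.scaleRoots b).eval a : CInt R K t₁) : F₁) =
      (b : F₁) ^ Q'.natDegree * (Q'.map (CInt R K t₁).subtype).eval ε := by
    have h7 := Polynomial.scaleRoots_eval₂_mul (p := Q') (CInt R K t₁).subtype ε b
    have h8 : (CInt R K t₁).subtype b * ε = (CInt R K t₁).subtype a := by
      show (b : F₁) * ((a : F₁) * (b : F₁)⁻¹) = a
      field_simp
    rw [h8, Polynomial.eval₂_hom] at h7
    rw [Polynomial.eval_map]
    exact h7
  have h7 : (Q'.map (CInt R K t₁).subtype).eval ε ∈ V₁.nonunits := by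
    have h8 : (Q'.map (CInt R K t₁).subtype).eval ε =
        ((b : F₁)⁻¹) ^ Q'.natDegree * (((Q'.scaleRoots b).eval a : CInt R K t₁) : F₁) := by
      rw [h6, ← mul_assoc, ← mul_pow, inv_mul_cancel₀ hb0, one_pow, one_mul]
    rw [h8]
    exact mul_mem_nonunits V₁ (pow_mem hbinv _) h5
  obtain ⟨y, hyC, hy'⟩ := h1.exists_of_monic hϖ hεV (Q'.map (CInt R K t₁).subtype)
    (hQ'm.map _) (fun i => by rw [Polynomial.coeff_map]; exact (Q'.coeff i).2) h7
  refine ⟨Ideal.Quotient.mk I ⟨y, hyC⟩, ?_⟩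
  have h8 : a - b * ⟨y, hyC⟩ ∈ I := by
    rw [h1.mem_span_unif_iff hϖ]
    have : ((a - b * ⟨y, hyC⟩ : CInt R K t₁) : F₁) = (b : F₁) * (ε - y) := by
      show (a : F₁) - (b : F₁) * y = _
      rw [hε]
      field_simp
    rw [this]
    exact mul_mem_nonunits V₁ (h1.C_le hϖ b.2) hy'
  have h9 : Ideal.Quotient.mk I a = Ideal.Quotient.mk I b * Ideal.Quotient.mk I ⟨y, hyC⟩ := by
    rw [← map_mul, Ideal.Quotient.eq]
    exact h8
  rw [h9, map_mul, mul_div_cancel_left₀]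
  intro h0
  exact nonZeroDivisors.ne_zero hy (hinj (by rw [h0, map_zero]))

end Fermat.Agent.S34
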