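import Fermat.Agent.S34.SS.DedA

set_option autoImplicit false
set_option linter.unusedSectionVars false

/-!
# S34 / SS / DedB : `C₁ / ϖ` is a Dedekind domain   (task SS-DedB)

SKETCH.  `Z = C₁ ⧸ span {ϖ}`.  Domain: `isPrime_span_unif`.  Noetherian: `lf_noeth h1.trans h1.fin` + quotient instance.  Integrally closed: `isIntegrallyClosed_quot`.
 `Ring.DimensionLEOne Z`: let `𝔓 ≠ ⊥` be a prime of `Z`; `ψ : R[X] →+* Z`, `s ↦ mk ⟨evR R K t₁ s, _⟩` is integral (as in task SS-Prim).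
 `𝔭 := 𝔓.comap ψ` is a prime of `R[X]` containing `C ϖ`, and it contains some `s` with `¬ C ϖ ∣ s`: take `0 ≠ z ∈ 𝔓`, a monic equation of minimal degree
 `z^k + ψ(a_{k-1}) z^(k-1) + .. + ψ(a₀) = 0`; `ψ(a₀) ≠ 0` by minimality (`Z` a domain), `ψ(a₀) ∈ 𝔓`, and `ψ(a₀) ≠ 0 ⟹ ¬ C ϖ ∣ a₀`
 (Mathlib: `Ideal.comap_ne_bot_of_integral_mem` / `Ideal.exists_coeff_ne_zero_mem_comap_of_root_mem` applied to `k[X] → Z`, or to `R[X] ⧸ ker ψ`).
 Then `𝔭` is maximal: `R[X] ⧸ span {C ϖ} ≃ (R ⧸ ϖ)[X]` is a PID (`R ⧸ span {ϖ}` is a field: `ϖ` generates the maximal ideal), the image of `𝔭` is a nonzero prime, hence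
 maximal (`Ideal.IsPrime.isMaximal` in a PID / `IsPrime.to_maximal_ideal`).  `𝔓` is maximal by `Ideal.isMaximal_of_isIntegral_of_isMaximal_comap'`.
 SUGGESTION: give `Z` the structure of an algebra over `k[X]`, `k = R ⧸ span {ϖ}` (`Ideal.Quotient.lift` + `Ideal.polynomialQuotientEquivQuotientPolynomial`), show it is integral and
 injective (`Chart1.evR_notMem`), and use `Ring.DimensionLEOne.isIntegralClosure`-style lemmas or directly
 `Ideal.isMaximal_of_isIntegral_of_isMaximal_comap` + `Ideal.comap_ne_bot_of_integral_mem`.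
-/

noncomputable section

namespace Fermat.Agent.S34

open Polynomial IntermediateField Fermat.Agent.S18

variable {R K F₁ F : Type} [CommRing R] [IsDomain R] [IsDiscreteValuationRing R] [Field K] [CharZero K]
  [Algebra R K] [IsFractionRing R K] [Field F₁] [Algebra K F₁] [Field F] [Algebra K F] {ϖ : R}

variable {t₁ : F₁} {V₁ : ValuationSubring F₁}

/-- `R[X] → C₁`. -/
def dedbPhi (R K : Type) {F₁ : Type} [CommRing R] [Field K] [Algebra R K] [Field F₁] [Algebra K F₁]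
    (t₁ : F₁) : R[X] →+* CInt R K t₁ :=
  (evR R K t₁).codRestrict (CInt R K t₁) (fun s => evR_mem_CInt t₁ s)

theorem dedb_eval₂ (t₁ : F₁) (c : CInt R K t₁) (P : R[X][X]) :
    ((P.eval₂ (dedbPhi R K t₁) c : CInt R K t₁) : F₁) = P.eval₂ (evR R K t₁) (c : F₁) := by
  have := Polynomial.hom_eval₂ P (dedbPhi R K t₁) (CInt R K t₁).subtype c
  exact this

theorem dedb_exists_monic (t₁ : F₁) (c : CInt R K t₁) :
    ∃ P : R[X][X], P.Monic ∧ P.eval₂ (dedbPhi R K t₁) c = 0 := by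
  obtain ⟨P, hP, h⟩ := c.2
  exact ⟨P, hP, Subtype.ext (by rw [dedb_eval₂]; exact h)⟩

/-- a prime of `R[X]` containing `ϖ` and a primitive polynomial is maximal. -/
theorem dedb_isMaximal (hϖ : Irreducible ϖ) (𝔭 : Ideal R[X]) [𝔭.IsPrime] (h1 : C ϖ ∈ 𝔭) {s : R[X]}
    (hs : s ∈ 𝔭) (hs' : ¬ C ϖ ∣ s) : 𝔭.IsMaximal := by
  let π : R[X] →+* (IsLocalRing.ResidueField R)[X] := Polynomial.mapRingHom (IsLocalRing.residue R)
  have hπs : Function.Surjective π :=
    Polynomial.map_surjective _ IsLocalRing.residue_surjective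
  have hker : ∀ a : R[X], π a = 0 → C ϖ ∣ a := by
    intro a ha
    rw [Polynomial.C_dvd_iff_dvd_coeff]
    intro i
    have h2 : IsLocalRing.residue R (a.coeff i) = 0 := by
      have := congrArg (fun p => Polynomial.coeff p i) ha
      simpa [π] using this
    rw [IsLocalRing.residue_eq_zero_iff, hϖ.maximalIdeal_eq, Ideal.mem_span_singleton] at h2
    exact h2
  have hkerle : RingHom.ker π ≤ 𝔭 := by
    intro a ha
    obtain ⟨b, rfl⟩ := hker a ha
    exact 𝔭.mul_mem_right _ h1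
  have hprime : (𝔭.map π).IsPrime := Ideal.map_isPrime_of_surjective hπs hkerle
  have hne : 𝔭.map π ≠ ⊥ := by
    intro hbot
    have h2 : π s ∈ 𝔭.map π := Ideal.mem_map_of_mem π hs
    rw [hbot, Ideal.mem_bot] at h2
    exact hs' (hker s h2)
  have hmax : (𝔭.map π).IsMaximal := hprime.isMaximal hne
  have hcomap : (𝔭.map π).comap π = 𝔭 := by
    rw [Ideal.comap_map_of_surjective π hπs]
    exact sup_eq_left.2 hkerle
  rw [← hcomap]
  exact Ideal.comap_isMaximal_of_surjective π hπs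

theorem Chart1.isDedekindDomain_quot (hϖ : Irreducible ϖ) (h1 : Chart1 K ϖ t₁ V₁) :
    IsDedekindDomain (CInt R K t₁ ⧸ Ideal.span {unifC (K := K) t₁ ϖ}) := by
  have hprime := h1.isPrime_span_unif hϖ
  have hic := h1.isIntegrallyClosed_quot hϖ
  have hnoeth : IsNoetherianRing (CInt R K t₁) := lf_noeth h1.trans h1.fin
  set I : Ideal (CInt R K t₁) := Ideal.span {unifC (K := K) t₁ ϖ} with hI
  have hdom : IsDomain (CInt R K t₁ ⧸ I) := inferInstance
  rw [isDedekindDomain_iff _ (FractionRing (CInt R K t₁ ⧸ I))]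
  refine ⟨hdom, inferInstance, ⟨fun {𝔓} h𝔓0 h𝔓 => ?_⟩,
    fun {x} hx => (isIntegrallyClosed_iff _).1 hic hx⟩
  let ψ : R[X] →+* CInt R K t₁ ⧸ I := (Ideal.Quotient.mk I).comp (dedbPhi R K t₁)
  have hψint : ψ.IsIntegral := by
    intro z
    obtain ⟨c, rfl⟩ := Ideal.Quotient.mk_surjective z
    obtain ⟨P, hP, h⟩ := dedb_exists_monic t₁ c
    refine ⟨P, hP, ?_⟩
    rw [← Polynomial.hom_eval₂, h, map_zero]
  have hψϖ : ψ (C ϖ) = 0 := by
    show Ideal.Quotient.mk I (dedbPhi R K t₁ (C ϖ)) = 0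
    rw [Ideal.Quotient.eq_zero_iff_mem, hI]
    have : dedbPhi R K t₁ (C ϖ) = unifC t₁ ϖ := Subtype.ext (evR_C _ _)
    rw [this]
    exact Ideal.mem_span_singleton_self _
  obtain ⟨z, hz, hz0⟩ := Submodule.exists_mem_ne_zero_of_ne_bot h𝔓0
  obtain ⟨P, hP, hPz⟩ := hψint z
  obtain ⟨i, hi0, hi⟩ := Ideal.exists_coeff_ne_zero_mem_comap_of_root_mem
    (f := RingHom.id (CInt R K t₁ ⧸ I)) hz0 hz (p := P.map ψ) (hP.map ψ).ne_zero
    (by rw [Polynomial.eval₂_map, RingHom.id_comp]; exact hPz)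
  rw [Polynomial.coeff_map] at hi0 hi
  have hmax : (𝔓.comap ψ).IsMaximal := by
    apply dedb_isMaximal hϖ (𝔓.comap ψ) (s := P.coeff i)
    · rw [Ideal.mem_comap, hψϖ]
      exact zero_mem _
    · exact hi
    · rintro ⟨b, hb⟩
      apply hi0
      rw [hb, map_mul, hψϖ, zero_mul]
  exact Ideal.isMaximal_of_isIntegral_of_isMaximal_comap' ψ hψint 𝔓 hmax

end Fermat.Agent.S34
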