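import Fermat.Agent.S34.Loc

set_option autoImplicit false

/-!
# S34 / SS : abstract two-level context  (chapter SS : structure of the special fibre)

`R` a DVR with uniformiser `ϖ`, `K = Frac R`.  `F₁ / K` the function field of the lower level (`M`, prime to the
residue characteristic), `t₁ : F₁` a chart parameter, `V₁` the UNIQUE extension of the Gauss valuation of `K(t₁)`.
`F / K` the function field of the upper level, `t : F`, `C = CInt R K t`, `C₁ = CInt R K t₁`.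

* `RedNormal K ϖ t₁` : the reduction `C₁ / ϖ` is integrally closed (algebraic form of N1).
* `Chart1 K ϖ t₁ V₁` : the level-`M` chart.
* `Side ϖ q t₁ V₁ t V ιa ιb` : a branch `V` of the upper level which is "birational to the lower level through `ιa`"
  (`f = 1`), and on which the other degeneracy map `ιb` is "Frobenius ∘ ιa".
  Nothing is said about the ramification index of `V`.
* `IsLocGen ϖ n₁ X₁` : `X₁` generates `n₁` locally modulo `ϖ`.
* `PreNode ϖ Vi V0 n S T` : `n = (ϖ, S, T)` locally, `S` (resp. `T`) a local equation mod `ϖ` of the branch `Vi` (resp. `V0`).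
-/

noncomputable section

namespace Fermat.Agent.S34

open Polynomial IntermediateField Fermat.Agent.S18

section
variable {R F₁ F : Type} [CommRing R] [Field F₁] [Field F]

/-- the reduction of the chart `t₁` is integrally closed. -/
def RedNormal (K : Type) [Field K] [Algebra R K] [Algebra K F₁] (ϖ : R) (t₁ : F₁) : Prop :=
  ∀ ε : F₁, InO K ϖ t₁ ε → ∀ P : R[X][X], P.Monic →
    CongA K ϖ t₁ (P.eval₂ (evR R K t₁) ε) 0 → ∃ y ∈ CInt R K t₁, CongA K ϖ t₁ y ε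

/-- a chart of the lower level: unique Gauss extension `V₁`, uniformiser `ϖ`, normal reduction. -/
structure Chart1 (K : Type) [Field K] [Algebra R K] [Algebra K F₁] (ϖ : R) (t₁ : F₁)
    (V₁ : ValuationSubring F₁) : Prop where
  trans : Transcendental K t₁
  fin : FiniteDimensional K⟮t₁⟯ F₁
  inO_iff : ∀ y : F₁, InO K ϖ t₁ y ↔ y ∈ V₁
  mem : rE R K F₁ ϖ ∈ V₁.nonunits
  unif : ∀ z ∈ V₁.nonunits, (rE R K F₁ ϖ)⁻¹ * z ∈ V₁
  normal : RedNormal K ϖ t₁

variable {K : Type} [Field K] [Algebra R K] [Algebra K F₁] [Algebra K F]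

/-- a branch `V` of the upper level, seen from the lower level through `ιa` (residue degree one), the other
degeneracy map `ιb` being a `q`-th power on it. -/
structure Side (R : Type) [CommRing R] [Algebra R K] (q : ℕ) (t₁ : F₁) (V₁ : ValuationSubring F₁) (t : F)
    (V : ValuationSubring F) (ιa ιb : F₁ →ₐ[K] F) : Prop where
  comap : ∀ y : F₁, ιa y ∈ V ↔ y ∈ V₁
  C_le : ∀ y ∈ CInt R K t, y ∈ V
  mapC_a : ∀ y ∈ CInt R K t₁, ιa y ∈ CInt R K t
  mapC_b : ∀ y ∈ CInt R K t₁, ιb y ∈ CInt R K t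
  res : ∀ z ∈ V, ∃ y ∈ V₁, z - ιa y ∈ V.nonunits
  frob : ∀ y ∈ CInt R K t₁, ∃ y' ∈ CInt R K t₁, ιb y - ιa y' ^ q ∈ V.nonunits
  tpar : ∃ y ∈ CInt R K t₁, t - ιa y ∈ V.nonunits

/-- `X₁` generates the ideal `n₁` locally at `n₁`, modulo `ϖ`. -/
def IsLocGen (ϖ : R) {t₁ : F₁} (n₁ : Ideal (CInt R K t₁)) (X₁ : CInt R K t₁) : Prop :=
  X₁ ∈ n₁ ∧ ∀ y ∈ n₁, ∃ d : CInt R K t₁, d ∉ n₁ ∧ ∃ a b : CInt R K t₁,
    d * y = X₁ * a + unifC t₁ ϖ * b

/-- pre-node: both branches pass through `n`, `S ∈ 𝔪_i`, `T ∈ 𝔪_0`, `n = (ϖ, S, T)` locally. -/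
structure PreNode (ϖ : R) (Vi V0 : ValuationSubring F) {t : F} (n : Ideal (CInt R K t)) (S T : F) :
    Prop where
  S_max : InMax n S
  T_max : InMax n T
  S_i : S ∈ Vi.nonunits
  T_0 : T ∈ V0.nonunits
  S_0 : S ∉ V0.nonunits
  T_i : T ∉ Vi.nonunits
  gen : ∀ z : F, InMax n z →
    ∃ a b c : F, InLoc n a ∧ InLoc n b ∧ InLoc n c ∧ z = rE R K F ϖ * a + S * b + T * c

/-- the "discriminant quotient": `D D' = c₀ ∈ R \ 0`, `D` a unit on `Vi`, zero on `V0`. -/
structure DData (Vi V0 : ValuationSubring F) {t : F} (n : Ideal (CInt R K t)) (D D' : F) (c₀ : R) :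
    Prop where
  ne : c₀ ≠ 0
  D_loc : InLoc n D
  D'_loc : InLoc n D'
  mul : D * D' = rE R K F c₀
  D_0 : D ∈ V0.nonunits
  D_i : D ∉ Vi.nonunits

/-- global data which produce `DData` at every point where both branches meet: `J = B(t) / t ^ r` ("`j`"),
`D, D'` integral over `K[J]` and in `Vi ∩ V0`, `g` integral over `K[J⁻¹]` and in `Vi ∩ V0` ("`j_q / j ^ q`").
(Integrality over `K[J]` is stated as: `ϖ ^ k * D` is integral over `R[J]`.) -/
structure JData (ϖ : R) (q : ℕ) (t : F) (Vi V0 : ValuationSubring F) (J D D' g Jq : F) (c₀ : R) :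
    Prop where
  J_eq : ∃ (B : R[X]) (r : ℕ), 1 ≤ r ∧ IsUnit (B.coeff 0) ∧ J * t ^ r = evR R K t B
  ne : c₀ ≠ 0
  D_int : ∃ k : ℕ, rE R K F ϖ ^ k * D ∈ CInt R K J
  D'_int : ∃ k : ℕ, rE R K F ϖ ^ k * D' ∈ CInt R K J
  D_mem_i : D ∈ Vi
  D'_mem_i : D' ∈ Vi
  D'_mem_0 : D' ∈ V0
  mul : D * D' = rE R K F c₀
  D_0 : D ∈ V0.nonunits
  D_i : D ∉ Vi.nonunits
  g_int : ∃ k : ℕ, rE R K F ϖ ^ k * g ∈ CInt R K J⁻¹
  g_mem_0 : g ∈ V0
  g_mul : g * J ^ q = Jq
  g_i : g - 1 ∈ Vi.nonunits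
  g_0 : ∃ k : ℕ, 1 ≤ k ∧ g - Jq⁻¹ ^ k ∈ V0.nonunits

end

end Fermat.Agent.S34
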