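import Fermat.Agent.S34.SS.Basic

set_option autoImplicit false
set_option linter.unusedSectionVars false

/-!
# S34 / SS / IntCl : the local ring `Oloc n` is integrally closed   (task SS-IntCl)

SKETCH.  `z ∈ CInt R K J`: a monic `P : R[X][X]` with `P.eval₂ (evR R K J) z = 0`.  `InLoc n J`: `d ∉ n`, `d J ∈ C`.
 Let `N` bound the degrees of all coefficients of `P` (`P.support.sup fun j => (P.coeff j).natDegree`).  Then `d^N * a(J) ∈ C` for every
 coefficient `a` (sum of `r_i d^(N-i) (d J)^i`).  `(P.map (evR R K J)).scaleRoots (d^N)` is monic, has coefficients `a_j(J) * d^(N (deg - j))` in `C`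
 (for `j < deg`; `1` for `j = deg`) and kills `d^N z` (`Polynomial.scaleRoots_eval₂_eq_zero` / `scaleRoots_aeval_eq_zero`).  So `d^N z` is integral
 over `C`, hence over `R[t]` (`isIntegral_trans`, or `integralClosure_idem`; compare `S18.IntLike.mul_pow_of_inv` in S18/AT/Normal.lean, which does
 exactly this computation, and `S34.loc_mem_CInt_of_pow` for the way to see `CInt` as an integral closure: `let _ := (evR R K t).toAlgebra`).
 Denominator `d^N ∉ n`.
-/

noncomputable section

namespace Fermat.Agent.S34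

open Polynomial IntermediateField Fermat.Agent.S18

variable {R K F₁ F : Type} [CommRing R] [IsDomain R] [IsDiscreteValuationRing R] [Field K] [CharZero K]
  [Algebra R K] [IsFractionRing R K] [Field F₁] [Algebra K F₁] [Field F] [Algebra K F] {ϖ : R}

theorem intCl_pow_mul_evR {t d J : F} (hd : d ∈ CInt R K t) (hdJ : d * J ∈ CInt R K t) (a : R[X])
    (N : ℕ) (hN : a.natDegree ≤ N) : d ^ N * evR R K J a ∈ CInt R K t := by
  have h : evR R K J a = ∑ i ∈ Finset.range (N + 1), rE R K F (a.coeff i) * J ^ i := by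
    rw [evR, coe_eval₂RingHom, eval₂_eq_sum_range' _ (Nat.lt_succ_of_le hN)]
  rw [h, Finset.mul_sum]
  refine sum_mem fun i hi => ?_
  have hi' : i ≤ N := Nat.lt_succ_iff.1 (Finset.mem_range.1 hi)
  have e : d ^ N * (rE R K F (a.coeff i) * J ^ i) =
      rE R K F (a.coeff i) * d ^ (N - i) * (d * J) ^ i := by
    have e1 : d ^ N = d ^ (N - i) * d ^ i := by rw [← pow_add, Nat.sub_add_cancel hi']
    rw [e1, mul_pow]
    ring
  rw [e]
  exact mul_mem (mul_mem (rE_mem_CInt t _) (pow_mem hd _)) (pow_mem hdJ _)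

/-- `Oloc n` is integrally closed, in the form we use: `J ∈ Oloc n`, `z` integral over `R[J]` ⟹ `z ∈ Oloc n`. -/
theorem InLoc.of_mem_CInt {t : F} {n : Ideal (CInt R K t)} [n.IsPrime] {J z : F} (hJ : InLoc n J)
    (hz : z ∈ CInt R K J) : InLoc n z := by
  obtain ⟨d, hd, hdJ⟩ := hJ
  obtain ⟨P, hPm, hP⟩ := hz
  set N : ℕ := P.support.sup fun j => (P.coeff j).natDegree with hN
  have hcoef : ∀ j, (d : F) ^ N * evR R K J (P.coeff j) ∈ CInt R K t := by
    intro j
    by_cases hj : j ∈ P.support
    · exact intCl_pow_mul_evR d.2 hdJ _ N (Finset.le_sup (f := fun j => (P.coeff j).natDegree) hj)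
    · rw [notMem_support_iff.1 hj, map_zero, mul_zero]
      exact zero_mem _
  refine ⟨d ^ N, fun h => hd (Ideal.IsPrime.mem_of_pow_mem inferInstance N h), ?_⟩
  let _ := (evR R K t).toAlgebra
  set Q : F[X] := (P.map (evR R K J)).scaleRoots ((d : F) ^ N) with hQ
  have hQm : Q.Monic := (monic_scaleRoots_iff _).2 (hPm.map _)
  have hQl : Q ∈ lifts (algebraMap (integralClosure R[X] F) F) := by
    rw [lifts_iff_coeff_lifts]
    intro j
    rw [hQ, coeff_scaleRoots, coeff_map, hPm.natDegree_map]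
    rcases lt_trichotomy j P.natDegree with hj | hj | hj
    · obtain ⟨k, hk⟩ : ∃ k, P.natDegree - j = k + 1 := ⟨P.natDegree - j - 1, by omega⟩
      have h1 : evR R K J (P.coeff j) * ((d : F) ^ N) ^ (P.natDegree - j) ∈ CInt R K t := by
        rw [hk, pow_succ]
        have e : evR R K J (P.coeff j) * (((d : F) ^ N) ^ k * (d : F) ^ N) =
            ((d : F) ^ N * evR R K J (P.coeff j)) * ((d : F) ^ N) ^ k := by ring
        rw [e]
        exact mul_mem (hcoef j) (pow_mem (pow_mem d.2 _) _)
      exact ⟨⟨_, h1⟩, rfl⟩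
    · refine ⟨1, ?_⟩
      rw [hj, hPm.coeff_natDegree]
      simp
    · refine ⟨0, ?_⟩
      rw [coeff_eq_zero_of_natDegree_lt hj]
      simp
  obtain ⟨q, hq, -, hqm⟩ := lifts_and_natDegree_eq_and_monic hQl hQm
  have h2 : Q.eval ((d : F) ^ N * z) = 0 := by
    have := scaleRoots_eval₂_mul (p := P.map (evR R K J)) (RingHom.id F) z ((d : F) ^ N)
    simp only [RingHom.id_apply, eval₂_id] at this
    rw [hQ, this, eval_map, hP, mul_zero]
  have hint : IsIntegral (integralClosure R[X] F) ((d : F) ^ N * z) :=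
    ⟨q, hqm, by rw [← eval_map, hq]; exact h2⟩
  have h3 : IsIntegral R[X] ((d : F) ^ N * z) := isIntegral_trans _ hint
  exact h3

end Fermat.Agent.S34
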