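import Fermat.Agent.S34.SS.Basic

set_option autoImplicit false
set_option linter.unusedSectionVars false

/-!
# S34 / SS / MorseA : the thickness of a pre-node is bounded by `v(c₀)`   (task SS-MorseA)

SKETCH.  Suppose `S T = ϖ^(a+1) φ`, `φ ∈ O = Oloc n`, `c₀ c₁ = ϖ^a`.  All elements of `O` lie in `Vi` and `V0` (`Centered.mem_of_inLoc`, `Branches.mem_of_mem_CInt`).
 `z := T * D' * c₁ / ϖ^a`  (`= T / D`, since `D D' = c₀`; `D ≠ 0` because `c₀ ≠ 0`).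
 * `z ∈ Vi`: `z = T * D⁻¹`, `D⁻¹ ∈ Vi` (`inv_mem_of_notMem_nonunits`, `hD.D_i`).
 * `z ∈ 𝔪_V0`: `S` is a unit of `V0` (`h.S_0`), so `T = ϖ^(a+1) φ S⁻¹` and `z = ϖ * (φ S⁻¹ D' c₁)`, `ϖ ∈ 𝔪_V0` (`hB.mem_0`).
 * `ϖ^a z = T D' c₁ ∈ O`, so `z ∈ O` (`Branches.sat_loc`), and `InMax n z`, `InMax n D` (`Centered.inMax` with `V0`).
 * `h.gen`: `D = ϖ a₁ + S b₁ + T c₁'`, `z = ϖ a₂ + S b₂ + T c₂`.  `T = D z`, so `T (1 - T c₁' c₂) = ϖ (..) + S (..) ∈ 𝔪_Vi` (`hB.mem_i`, `h.S_i`, coefficients in `O ⊆ Vi`).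
   `1 - T c₁' c₂` is a `LocUnit` (`LocUnit.one_add` with `InMax n (-(T c₁' c₂))`), so not in `𝔪_Vi` (`LocUnit.notMem_nonunits`); `T ∉ 𝔪_Vi` (`h.T_i`); `ss_mul_notMem`: contradiction.
-/

noncomputable section

namespace Fermat.Agent.S34

open Polynomial IntermediateField Fermat.Agent.S18

variable {R K F₁ F : Type} [CommRing R] [IsDomain R] [IsDiscreteValuationRing R] [Field K] [CharZero K]
  [Algebra R K] [IsFractionRing R K] [Field F₁] [Algebra K F₁] [Field F] [Algebra K F] {ϖ : R}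

theorem PreNode.mul_ne (hϖ : Irreducible ϖ) {x : F} {Vi V0 : ValuationSubring F}
    (hB : Branches (K := K) ϖ x Vi V0) {t : F} (ht : t = x ∨ t = x⁻¹)
    {n : Ideal (CInt R K t)} (hn : IsClosedPt ϖ n) (hi : Centered Vi n) (h0 : Centered V0 n)
    {S T : F} (h : PreNode ϖ Vi V0 n S T) {D D' : F} {c₀ : R} (hD : DData Vi V0 n D D' c₀)
    {a : ℕ} (ha : c₀ ∣ ϖ ^ a) {φ : F} (hφ : InLoc n φ) :
    S * T ≠ rE R K F ϖ ^ (a + 1) * φ := by
  intro e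
  haveI hp := hn.max.isPrime
  obtain ⟨c₁, hc₁⟩ := ha
  have hVi : ∀ y ∈ CInt R K t, y ∈ Vi := fun y hy => (hB.mem_of_mem_CInt hϖ ht hy).1
  have hV0 : ∀ y ∈ CInt R K t, y ∈ V0 := fun y hy => (hB.mem_of_mem_CInt hϖ ht hy).2
  set p := rE R K F ϖ with hpdef
  have hp0 : p ≠ 0 := ss_rE_ne_zero (K := K) (F := F) hϖ
  have hc₀ : rE R K F c₀ ≠ 0 := fun h' =>
    hD.ne (rE_injective (K := K) (E := F) (by rw [h', map_zero]))
  have hD0 : D ≠ 0 := by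
    intro h'
    apply hc₀
    rw [← hD.mul, h', zero_mul]
  have hS0 : S ≠ 0 := fun h' => h.S_0 (h' ▸ zero_mem_nonunits V0)
  have hpa : p ^ a = D * D' * rE R K F c₁ := by
    rw [hD.mul, ← map_mul, ← hc₁, map_pow]
  set z := T * D⁻¹ with hz
  have hTD : T = D * z := by rw [hz]; field_simp
  have hpz : p ^ a * z = T * D' * rE R K F c₁ := by
    rw [hpa, hz]; field_simp
  have hzi : z ∈ Vi := mul_mem (hi.mem_of_inLoc hVi h.T_max.inLoc)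
    (inv_mem_of_notMem_nonunits Vi (hi.mem_of_inLoc hVi hD.D_loc) hD.D_i)
  have hSinv : S⁻¹ ∈ V0 := inv_mem_of_notMem_nonunits V0 (h0.mem_of_inLoc hV0 h.S_max.inLoc) h.S_0
  have hz0 : z ∈ V0.nonunits := by
    have e1 : z = p * (φ * S⁻¹ * D' * rE R K F c₁) := by
      apply mul_left_cancel₀ (pow_ne_zero a hp0)
      rw [hpz]
      have : T = p ^ (a + 1) * φ * S⁻¹ := by
        rw [← e]; field_simp
      rw [this]; ring
    rw [e1]
    exact mul_mem_nonunits' V0 hB.mem_0 (mul_mem (mul_mem (mul_mem (h0.mem_of_inLoc hV0 hφ) hSinv)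
      (h0.mem_of_inLoc hV0 hD.D'_loc)) (hV0 _ (rE_mem_CInt t c₁)))
  have hzO : InLoc n z := hB.sat_loc hϖ ht a (by
    rw [← hpdef, hpz]
    exact (h.T_max.inLoc.mul hD.D'_loc).mul (InLoc.rE c₁)) hzi (mem_of_mem_nonunits V0 hz0)
  have hzM : InMax n z := h0.inMax hV0 hzO hz0
  have hDM : InMax n D := h0.inMax hV0 hD.D_loc hD.D_0
  obtain ⟨a₁, b₁, c₁', ha₁, hb₁, hc₁', hDe⟩ := h.gen D hDM
  obtain ⟨a₂, b₂, c₂, ha₂, hb₂, hc₂, hze⟩ := h.gen z hzM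
  have key : T * (1 + -(T * (c₁' * c₂))) =
      p * (a₁ * z + T * c₁' * a₂) + S * (b₁ * z + T * c₁' * b₂) := by
    have h1 : T = (p * a₁ + S * b₁ + T * c₁') * z := by rw [← hDe]; exact hTD
    have h2 : T * c₁' * z = T * c₁' * (p * a₂ + S * b₂ + T * c₂) := by rw [← hze]
    linear_combination h1 + h2
  have hunit : (1 + -(T * (c₁' * c₂))) ∉ Vi.nonunits :=
    (LocUnit.one_add (h.T_max.mul_right (hc₁'.mul hc₂)).neg).notMem_nonunits hVi hi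
  apply ss_mul_notMem Vi h.T_i hunit
  rw [key]
  have hTL := h.T_max.inLoc
  exact add_mem_nonunits Vi
    (mul_mem_nonunits' Vi hB.mem_i (hi.mem_of_inLoc hVi ((ha₁.mul hzO).add ((hTL.mul hc₁').mul ha₂))))
    (mul_mem_nonunits' Vi h.S_i (hi.mem_of_inLoc hVi ((hb₁.mul hzO).add ((hTL.mul hc₁').mul hb₂))))

end Fermat.Agent.S34
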