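import Fermat.Agent.S34.SS.Res

set_option autoImplicit false
set_option linter.unusedSectionVars false

/-!
# S34 / SS / NT : `C / (C ∩ 𝔪_V) = C₁ / ϖ` through `ιa`   (task SS-NT)

SKETCH.  `c ∈ C`: monic `P : R[X][X]`, `P.eval₂ (evR R K t) c = 0`.  `hs.C_le`: `c ∈ V`; `hs.res`: `ε ∈ V₁`, `c - ιa ε ∈ 𝔪_V`.
 `hs.tpar`: `τ ∈ C₁`, `t - ιa τ ∈ 𝔪_V`.  Put `P₁ := P.map (evR R K τ) : F₁[X]` (evaluate the coefficients at `τ` instead of `t₁`): monic,
 coefficients `evR R K τ a ∈ C₁` (`C₁` is a subring containing `R` and `τ`: induction on the polynomial `a`).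
 CLAIM `ιa (P₁.eval ε) ∈ 𝔪_V`.  `ιa (P₁.eval ε) = ∑ j, evR R K (ιa τ) (P.coeff j) * (ιa ε)^j` (`ss_algHom_evR`, `eval_eq_sum_range`), and
 `0 = ∑ j, evR R K t (P.coeff j) * c^j`.  Termwise difference lies in `𝔪_V`:  `evR (ιa τ) a - evR t a ∈ 𝔪_V` for all `a : R[X]`
 (induction on `a`, `ss_pow_sub_pow_mem`; `t, ιa τ ∈ V`, constants `rE r ∈ V` by `hs.C_le _ (rE_mem_CInt t r)`), `(ιa ε)^j - c^j ∈ 𝔪_V`, all elements in `V`.
 `hs.comap_nonunits`: `P₁.eval ε ∈ 𝔪₁`.  `Chart1.exists_of_monic`: `y ∈ C₁`, `ε - y ∈ 𝔪₁`.  Then `c - ιa y = (c - ιa ε) + ιa (ε - y) ∈ 𝔪_V`.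
-/

noncomputable section

namespace Fermat.Agent.S34

open Polynomial IntermediateField Fermat.Agent.S18

variable {R K F₁ F : Type} [CommRing R] [IsDomain R] [IsDiscreteValuationRing R] [Field K] [CharZero K]
  [Algebra R K] [IsFractionRing R K] [Field F₁] [Algebra K F₁] [Field F] [Algebra K F] {ϖ : R}

theorem nt_evR_mem_CInt {t₁ τ : F₁} (hτ : τ ∈ CInt R K t₁) (a : R[X]) :
    evR R K τ a ∈ CInt R K t₁ := by
  induction a using Polynomial.induction_on' with
  | add p q hp hq => rw [map_add]; exact add_mem hp hq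
  | monomial n r =>
    rw [← C_mul_X_pow_eq_monomial, map_mul, map_pow, evR_C, evR_X]
    exact mul_mem (rE_mem_CInt t₁ r) (pow_mem hτ n)

theorem nt_evR_mem (V : ValuationSubring F) (hR : ∀ r : R, rE R K F r ∈ V) {a : F} (ha : a ∈ V)
    (s : R[X]) : evR R K a s ∈ V := by
  induction s using Polynomial.induction_on' with
  | add p q hp hq => rw [map_add]; exact add_mem hp hq
  | monomial n r =>
    rw [← C_mul_X_pow_eq_monomial, map_mul, map_pow, evR_C, evR_X]
    exact mul_mem (hR r) (pow_mem ha n)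

theorem nt_evR_sub (V : ValuationSubring F) (hR : ∀ r : R, rE R K F r ∈ V) {a b : F} (ha : a ∈ V)
    (hb : b ∈ V) (h : a - b ∈ V.nonunits) (s : R[X]) :
    evR R K a s - evR R K b s ∈ V.nonunits := by
  induction s using Polynomial.induction_on' with
  | add p q hp hq =>
    rw [map_add, map_add]
    have e : evR R K a p + evR R K a q - (evR R K b p + evR R K b q) =
        (evR R K a p - evR R K b p) + (evR R K a q - evR R K b q) := by ring
    rw [e]
    exact add_mem_nonunits V hp hq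
  | monomial n r =>
    rw [← C_mul_X_pow_eq_monomial, map_mul, map_pow, evR_C, evR_X, map_mul, map_pow, evR_C, evR_X,
      ← mul_sub]
    exact mul_mem_nonunits V (hR r) (ss_pow_sub_pow_mem V ha hb h n)

theorem nt_eval₂_sub (V : ValuationSubring F) (hR : ∀ r : R, rE R K F r ∈ V) {a b u w : F}
    (ha : a ∈ V) (hb : b ∈ V) (h : a - b ∈ V.nonunits) (hu : u ∈ V) (hw : w ∈ V)
    (h' : u - w ∈ V.nonunits) (P : R[X][X]) :
    P.eval₂ (evR R K a) u - P.eval₂ (evR R K b) w ∈ V.nonunits := by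
  induction P using Polynomial.induction_on' with
  | add p q hp hq =>
    rw [eval₂_add, eval₂_add]
    have e : eval₂ (evR R K a) u p + eval₂ (evR R K a) u q -
        (eval₂ (evR R K b) w p + eval₂ (evR R K b) w q) =
        (eval₂ (evR R K a) u p - eval₂ (evR R K b) w p) +
          (eval₂ (evR R K a) u q - eval₂ (evR R K b) w q) := by ring
    rw [e]
    exact add_mem_nonunits V hp hq
  | monomial n s =>
    rw [eval₂_monomial, eval₂_monomial]
    have e : evR R K a s * u ^ n - evR R K b s * w ^ n =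
        evR R K a s * (u ^ n - w ^ n) + (evR R K a s - evR R K b s) * w ^ n := by ring
    rw [e]
    exact add_mem_nonunits V
      (mul_mem_nonunits V (nt_evR_mem V hR ha s) (ss_pow_sub_pow_mem V hu hw h' n))
      (mul_mem_nonunits' V (nt_evR_sub V hR ha hb h s) (pow_mem hw n))

/-- **normality transfer**. -/
theorem Side.exists_sub_mem (hϖ : Irreducible ϖ) {q : ℕ} {t₁ : F₁} {V₁ : ValuationSubring F₁} {t : F}
    {V : ValuationSubring F} {ιa ιb : F₁ →ₐ[K] F} (h1 : Chart1 K ϖ t₁ V₁)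
    (hs : Side R q t₁ V₁ t V ιa ιb) {c : F} (hc : c ∈ CInt R K t) :
    ∃ y ∈ CInt R K t₁, c - ιa y ∈ V.nonunits := by
  have hcV : c ∈ V := hs.C_le c hc
  obtain ⟨P, hPm, hP⟩ := hc
  obtain ⟨ε, hε, hcε⟩ := hs.res c hcV
  obtain ⟨τ, hτ, htτ⟩ := hs.tpar
  have hR : ∀ r : R, rE R K F r ∈ V := fun r => hs.C_le _ (rE_mem_CInt t r)
  have htV : t ∈ V := hs.C_le _ (by simpa [evR_X] using evR_mem_CInt (R := R) (K := K) t X)
  have hτV : ιa τ ∈ V := (hs.comap τ).2 (h1.C_le hϖ hτ)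
  have hεV : ιa ε ∈ V := (hs.comap ε).2 hε
  have hkey := nt_eval₂_sub V hR htV hτV htτ hcV hεV hcε P
  rw [hP, zero_sub] at hkey
  have hcomp : (ιa : F₁ →+* F).comp (evR R K τ) = evR R K (ιa τ) :=
    RingHom.ext fun s => ss_algHom_evR ιa τ s
  have h2 : ιa ((P.map (evR R K τ)).eval ε) = P.eval₂ (evR R K (ιa τ)) (ιa ε) := by
    rw [eval_map, ← hcomp]
    exact hom_eval₂ P (evR R K τ) (ιa : F₁ →+* F) ε
  have h3 : (P.map (evR R K τ)).eval ε ∈ V₁.nonunits := by
    rw [← hs.comap_nonunits, h2, ValuationSubring.mem_nonunits_iff]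
    rw [ValuationSubring.mem_nonunits_iff, Valuation.map_neg] at hkey
    exact hkey
  obtain ⟨y, hy, hy'⟩ := h1.exists_of_monic hϖ hε (P.map (evR R K τ)) (hPm.map _)
    (fun i => by rw [coeff_map]; exact nt_evR_mem_CInt hτ _) h3
  refine ⟨y, hy, ?_⟩
  have e : c - ιa y = (c - ιa ε) + ιa (ε - y) := by rw [map_sub]; ring
  rw [e]
  exact add_mem_nonunits V hcε ((hs.comap_nonunits _).2 hy')

end Fermat.Agent.S34
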