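import Fermat.Agent.S34.SS.Basic

set_option autoImplicit false
set_option linter.unusedSectionVars false

/-!
# S34 / SS / Res : `RedNormal` for polynomials with coefficients in `C₁`   (task SS-Res)

`ε ∈ V₁` is a root modulo `𝔪₁` of a monic polynomial with coefficients in `C₁ = CInt R K t₁`  ⟹  `ε ≡ y mod 𝔪₁` with `y ∈ C₁`.

SKETCH.  `κ := IsLocalRing.ResidueField V₁`, `ρ : V₁ →+* κ` the residue map; `ρ a = 0 ↔ (a : F₁) ∈ V₁.nonunits`
 (`IsLocalRing.residue_eq_zero_iff`, `ValuationSubring.mem_nonunits_iff_exists_mem_maximalIdeal`).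
 `φ : R[X] →+* κ`, `s ↦ ρ ⟨evR R K t₁ s, _⟩` (`Chart1.C_le`); use `φ.toAlgebra`.
 (a) for `c ∈ C₁`, `ρ c` is integral over `R[X]` (apply `ρ` to the monic equation of `c`).
 (b) `ρ ε` is a root of the monic polynomial `P̄` (coefficients `ρ (P.coeff i)`), whose coefficients lie in `integralClosure R[X] κ`; hence `ρ ε` is integral over
     `integralClosure R[X] κ`, hence over `R[X]` (`isIntegral_trans` / `IsIntegral.of_mem_of_fg` / `integralClosure_idem`).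
 (c) a monic `P' : R[X][X]` with `P'.eval₂ φ (ρ ε) = 0`, i.e. `P'.eval₂ (evR R K t₁) ε ∈ V₁.nonunits`, i.e. (`Chart1.congA_iff`) `CongA K ϖ t₁ (..) 0`.
 (d) `h1.normal ε ((h1.inO_iff ε).2 hε) P' ..` gives `y`; `Chart1.congA_iff` again.
-/

noncomputable section

namespace Fermat.Agent.S34

open Polynomial IntermediateField Fermat.Agent.S18

variable {R K F₁ F : Type} [CommRing R] [IsDomain R] [IsDiscreteValuationRing R] [Field K] [CharZero K]
  [Algebra R K] [IsFractionRing R K] [Field F₁] [Algebra K F₁] [Field F] [Algebra K F] {ϖ : R}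

theorem res_coe_eval₂ {A : Type} [CommRing A] (V : ValuationSubring F₁) (f : A →+* F₁)
    (hf : ∀ a, f a ∈ V) (x : V) (P : A[X]) :
    ((P.eval₂ (f.codRestrict V hf) x : V) : F₁) = P.eval₂ f (x : F₁) := by
  have h1 := hom_eval₂ P (f.codRestrict V hf) V.subtype x
  have h2 : V.subtype.comp (f.codRestrict V hf) = f := by
    ext a
    rfl
  rw [h2] at h1
  exact h1

theorem res_residue_eq_zero_iff (V : ValuationSubring F₁) (x : V) :
    IsLocalRing.residue V x = 0 ↔ (x : F₁) ∈ V.nonunits := by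
  rw [IsLocalRing.residue_eq_zero_iff, ValuationSubring.coe_mem_nonunits_iff]

theorem Chart1.exists_of_monic (hϖ : Irreducible ϖ) {t₁ : F₁} {V₁ : ValuationSubring F₁}
    (h1 : Chart1 K ϖ t₁ V₁) {ε : F₁} (hε : ε ∈ V₁) (P : F₁[X]) (hP : P.Monic)
    (hc : ∀ i, P.coeff i ∈ CInt R K t₁) (h0 : P.eval ε ∈ V₁.nonunits) :
    ∃ y ∈ CInt R K t₁, ε - y ∈ V₁.nonunits := by
  have hev : ∀ s, evR R K t₁ s ∈ V₁ := fun s => h1.C_le hϖ (evR_mem_CInt t₁ s)
  set φ₀ : R[X] →+* V₁ := (evR R K t₁).codRestrict V₁ hev with hφ₀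
  set ρ : V₁ →+* IsLocalRing.ResidueField V₁ := IsLocalRing.residue V₁ with hρ
  let _ : Algebra R[X] (IsLocalRing.ResidueField V₁) := (ρ.comp φ₀).toAlgebra
  -- (a)
  have ha : ∀ c : V₁, (c : F₁) ∈ CInt R K t₁ → IsIntegral R[X] (ρ c) := by
    intro c hc'
    obtain ⟨Q, hQm, hQ⟩ := hc'
    refine ⟨Q, hQm, ?_⟩
    have e1 : eval₂ φ₀ c Q = 0 := Subtype.ext ((res_coe_eval₂ V₁ _ hev c Q).trans hQ)
    have e2 := hom_eval₂ Q φ₀ ρ c
    rw [e1, map_zero] at e2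
    exact e2.symm
  -- (b)
  have hPl : P ∈ lifts V₁.subtype := by
    rw [lifts_iff_coeff_lifts]
    intro i
    exact ⟨⟨P.coeff i, h1.C_le hϖ (hc i)⟩, rfl⟩
  obtain ⟨PV, hPV, -, hPVm⟩ := lifts_and_natDegree_eq_and_monic hPl hP
  have hPVc : ∀ i, ((PV.coeff i : V₁) : F₁) = P.coeff i := by
    intro i
    rw [← hPV, coeff_map]
    rfl
  have hroot : (PV.map ρ).eval (ρ ⟨ε, hε⟩) = 0 := by
    rw [eval_map, eval₂_hom, hρ, res_residue_eq_zero_iff]
    have e1 := eval₂_hom V₁.subtype (⟨ε, hε⟩ : V₁) (p := PV)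
    rw [← eval_map, hPV] at e1
    have e2 : ((eval (⟨ε, hε⟩ : V₁) PV : V₁) : F₁) = P.eval ε := e1.symm
    rw [e2]
    exact h0
  have hl : PV.map ρ ∈ lifts (algebraMap (integralClosure R[X] (IsLocalRing.ResidueField V₁))
      (IsLocalRing.ResidueField V₁)) := by
    rw [lifts_iff_coeff_lifts]
    intro i
    rw [coeff_map]
    exact ⟨⟨_, ha (PV.coeff i) (by rw [hPVc]; exact hc i)⟩, rfl⟩
  obtain ⟨q, hq, -, hqm⟩ := lifts_and_natDegree_eq_and_monic hl (hPVm.map ρ)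
  have hint : IsIntegral (integralClosure R[X] (IsLocalRing.ResidueField V₁)) (ρ ⟨ε, hε⟩) :=
    ⟨q, hqm, by rw [← eval_map, hq]; exact hroot⟩
  have hint' : IsIntegral R[X] (ρ ⟨ε, hε⟩) := isIntegral_trans _ hint
  -- (c)
  obtain ⟨P', hP'm, hP'⟩ := hint'
  have hP'' : eval₂ (ρ.comp φ₀) (ρ ⟨ε, hε⟩) P' = 0 := hP'
  rw [← hom_eval₂ P' φ₀ ρ, hρ, res_residue_eq_zero_iff, res_coe_eval₂] at hP''
  -- (d)
  obtain ⟨y, hy, hy'⟩ := h1.normal ε ((h1.inO_iff ε).2 hε) P' hP'm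
    ((h1.congA_iff hϖ _ 0).2 (by rw [sub_zero]; exact hP''))
  refine ⟨y, hy, ?_⟩
  have h2 := (h1.congA_iff hϖ _ _).1 hy'
  rw [ValuationSubring.mem_nonunits_iff] at h2 ⊢
  rwa [← neg_sub, Valuation.map_neg]

end Fermat.Agent.S34
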