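import Fermat.Agent.S34.SS.NT
import Fermat.Agent.S34.SS.DedC

set_option autoImplicit false
set_option linter.unusedSectionVars false

/-!
# S34 / SS / Sm : a closed point where `C ∩ 𝔪_V = (ϖ)` locally is smooth-like   (task SS-Sm)

SKETCH.  `ιC : C₁ →+* C` := restriction of `ιa` (`RingHom.restrict`, `hs.mapC_a`), `n₁ := n.comap ιC` (prime, contains `unifC t₁ ϖ` because `ιa (rE ϖ) = rE ϖ`: `ss_algHom_rE`).
 `X₁` := `Chart1.exists_locGen`, `S := ιa X₁` (`InMax.of_mem`).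
 Let `z` with `d₀ z = w ∈ n`, `d₀ ∉ n`.  `Side.exists_sub_mem`: `w = ιa y + p`, `y ∈ C₁`, `p ∈ C ∩ 𝔪_V ⊆ n` (`hc`), so `ιa y ∈ n`, `y ∈ n₁`.
 `d₁ y = X₁ a + ϖ b`, `d₁ ∉ n₁`.  `hsat`: `d p = ϖ p'`.  Then
   `(d * ιa d₁ * d₀) z = ϖ * (ιa d₁ * p' + d * ιa b) + S * (d * ιa a)`,
 and `e := d * ιC d₁ * d₀ ∉ n`; divide by `e` (`InLoc.inv_of_notMem`, `InLoc.mul`, `InLoc.of_mem`).
-/

noncomputable section

namespace Fermat.Agent.S34

open Polynomial IntermediateField Fermat.Agent.S18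

variable {R K F₁ F : Type} [CommRing R] [IsDomain R] [IsDiscreteValuationRing R] [Field K] [CharZero K]
  [Algebra R K] [IsFractionRing R K] [Field F₁] [Algebra K F₁] [Field F] [Algebra K F] {ϖ : R}

theorem Side.smAt (hϖ : Irreducible ϖ) {q : ℕ} {t₁ : F₁} {V₁ : ValuationSubring F₁} {t : F}
    {V : ValuationSubring F} {ιa ιb : F₁ →ₐ[K] F} (h1 : Chart1 K ϖ t₁ V₁)
    (hs : Side R q t₁ V₁ t V ιa ιb) {n : Ideal (CInt R K t)} (hn : IsClosedPt ϖ n)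
    (hc : Centered V n)
    (hsat : ∃ d : CInt R K t, d ∉ n ∧ ∀ p : CInt R K t, (p : F) ∈ V.nonunits →
      ∃ p' : CInt R K t, d * p = unifC t ϖ * p') : SmAt ϖ n := by
  haveI hp : n.IsPrime := hn.max.isPrime
  set ιC : CInt R K t₁ →+* CInt R K t :=
    (ιa : F₁ →+* F).restrict (CInt R K t₁) (CInt R K t) hs.mapC_a with hιC
  have hιC' : ∀ y : CInt R K t₁, ((ιC y : CInt R K t) : F) = ιa y := fun y => rfl
  have hunif : ιC (unifC t₁ ϖ) = unifC t ϖ := Subtype.ext (ss_algHom_rE ιa ϖ)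
  set n₁ : Ideal (CInt R K t₁) := n.comap ιC with hn₁
  haveI : n₁.IsPrime := Ideal.comap_isPrime ιC n
  have hun : unifC t₁ ϖ ∈ n₁ := by
    show ιC (unifC t₁ ϖ) ∈ n
    rw [hunif]
    exact hn.mem
  obtain ⟨X₁, hX₁, hgen⟩ := h1.exists_locGen hϖ n₁ hun
  obtain ⟨d, hd, hsat⟩ := hsat
  refine ⟨ιa X₁, InMax.of_mem (c := ιC X₁) hX₁, ?_⟩
  rintro z ⟨d₀, hd₀, w, hw, hz⟩
  obtain ⟨y, hy, hwy⟩ := hs.exists_sub_mem hϖ h1 w.2
  obtain ⟨p, hpdef⟩ : ∃ p : CInt R K t, p = w - ιC ⟨y, hy⟩ := ⟨_, rfl⟩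
  have hp' : (p : F) ∈ V.nonunits := by
    rw [hpdef]
    exact hwy
  have hpn : p ∈ n := hc p hp'
  have hyn : (⟨y, hy⟩ : CInt R K t₁) ∈ n₁ := by
    show ιC ⟨y, hy⟩ ∈ n
    have : ιC ⟨y, hy⟩ = w - p := by rw [hpdef]; ring
    rw [this]
    exact n.sub_mem hw hpn
  obtain ⟨d₁, hd₁, a, b, e1⟩ := hgen _ hyn
  obtain ⟨p', e2⟩ := hsat p hp'
  have he : d * ιC d₁ * d₀ ∉ n := loc_mul_notMem (loc_mul_notMem hd hd₁) hd₀
  have he0 := ss_coe_ne_zero he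
  have e1' := congrArg ιC e1
  rw [map_mul, map_add, map_mul, map_mul, hunif] at e1'
  have key : d * ιC d₁ * w =
      unifC t ϖ * (ιC d₁ * p' + d * ιC b) + ιC X₁ * (d * ιC a) := by
    have hw' : w = ιC ⟨y, hy⟩ + p := by rw [hpdef]; ring
    rw [hw']
    linear_combination d * e1' + ιC d₁ * e2
  have key' : ((d * ιC d₁ * d₀ : CInt R K t) : F) * z =
      rE R K F ϖ * ((ιC d₁ * p' + d * ιC b : CInt R K t) : F) +
        ιa X₁ * ((d * ιC a : CInt R K t) : F) := by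
    have h2 := congrArg (Subtype.val : CInt R K t → F) key
    have h3 : ((d * ιC d₁ * d₀ : CInt R K t) : F) * z = ((d * ιC d₁ * w : CInt R K t) : F) := by
      rw [Subring.coe_mul _ _ d₀, Subring.coe_mul _ _ w, mul_assoc, hz]
    rw [h3]
    exact h2
  refine ⟨((d * ιC d₁ * d₀ : CInt R K t) : F)⁻¹ * ((ιC d₁ * p' + d * ιC b : CInt R K t) : F),
    ((d * ιC d₁ * d₀ : CInt R K t) : F)⁻¹ * ((d * ιC a : CInt R K t) : F),
    (InLoc.inv_of_notMem he).mul (InLoc.of_mem n (Subtype.property _)),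
    (InLoc.inv_of_notMem he).mul (InLoc.of_mem n (Subtype.property _)), ?_⟩
  have h4 : z = ((d * ιC d₁ * d₀ : CInt R K t) : F)⁻¹ * (((d * ιC d₁ * d₀ : CInt R K t) : F) * z) := by
    rw [← mul_assoc, inv_mul_cancel₀ he0, one_mul]
  rw [key'] at h4
  rw [h4]
  ring

end Fermat.Agent.S34
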